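import Mathlib

/-!
# Gluing morphisms of sheaves of modules

`locApp U e h` is the action of a morphism over `U` on sections over an open inside `U`.
Morphisms which agree on a cover are equal (`hom_ext_of_cover`), compatible morphisms on a cover
glue (`exists_hom`), and so do compatible isomorphisms (`exists_iso_of_locApp`);
`locApp_eq_homOfLE` translates compatibility into restriction functors.
-/

set_option autoImplicit false

noncomputable section

open CategoryTheory CategoryTheory.Limits AlgebraicGeometry Opposite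

universe u

namespace FLTAgent.JacRep.Glue

variable {X : Scheme.{u}} {M N P : X.Modules} {U : X.Opens}

theorem image_preimage_of_le {W : X.Opens} (h : W ≤ U) : U.ι ''ᵁ (U.ι ⁻¹ᵁ W) = W := by
  rw [Scheme.Hom.image_preimage_eq_opensRange_inf, Scheme.Opens.opensRange_ι, inf_eq_right.mpr h]

/-- A morphism over `U` on sections over the image of an open of `U`. -/
def appImage
    (e : (Scheme.Modules.restrictFunctor U.ι).obj M ⟶ (Scheme.Modules.restrictFunctor U.ι).obj N)
    (Q : U.toScheme.Opens) : Γ(M, U.ι ''ᵁ Q) ⟶ Γ(N, U.ι ''ᵁ Q) :=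
  e.app Q

variable (e : (Scheme.Modules.restrictFunctor U.ι).obj M ⟶
  (Scheme.Modules.restrictFunctor U.ι).obj N)

theorem appImage_naturality {Q Q' : U.toScheme.Opens} (h : Q ≤ Q') :
    M.presheaf.map (homOfLE (U.ι.image_mono h)).op ≫ appImage e Q =
      appImage e Q' ≫ N.presheaf.map (homOfLE (U.ι.image_mono h)).op :=
  e.mapPresheaf.naturality (homOfLE h).op

theorem appImage_smul (Q : U.toScheme.Opens) (r : Γ(X, U.ι ''ᵁ Q)) (y : Γ(M, U.ι ''ᵁ Q)) :
    appImage e Q (r • y) = r • appImage e Q y := by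
  have hr : (U.ι.appIso Q).inv r = r := by rw [Scheme.Opens.ι_appIso]; rfl
  have h : appImage e Q ((U.ι.appIso Q).inv r • y) = (U.ι.appIso Q).inv r • appImage e Q y :=
    Scheme.Modules.Hom.app_smul e (U := Q) r y
  rwa [hr] at h

variable (U) in
/-- A morphism over `U` on sections over an open inside `U`. -/
def locApp {W : X.Opens} (h : W ≤ U) : Γ(M, W) ⟶ Γ(N, W) :=
  M.presheaf.map (eqToHom (image_preimage_of_le h)).op ≫ appImage e (U.ι ⁻¹ᵁ W) ≫
    N.presheaf.map (eqToHom (image_preimage_of_le h).symm).op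

theorem locApp_eq {W : X.Opens} (h : W ≤ U) (Q : U.toScheme.Opens) (hQ : U.ι ''ᵁ Q = W) :
    locApp U e h = M.presheaf.map (eqToHom hQ).op ≫ appImage e Q ≫
      N.presheaf.map (eqToHom hQ.symm).op := by
  obtain rfl : Q = U.ι ⁻¹ᵁ W := by rw [← hQ, Scheme.Hom.preimage_image_eq]
  rfl

theorem locApp_map {V W : X.Opens} (hVW : V ≤ W) (h : W ≤ U) :
    M.presheaf.map (homOfLE hVW).op ≫ locApp U e (hVW.trans h) =
      locApp U e h ≫ N.presheaf.map (homOfLE hVW).op := by
  have hn := appImage_naturality e (U.ι.preimage_mono hVW)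
  simp only [locApp, Category.assoc]
  rw [← Category.assoc, ← Functor.map_comp]
  have e₁ : (homOfLE hVW).op ≫ (eqToHom (image_preimage_of_le (hVW.trans h))).op =
      (eqToHom (image_preimage_of_le h)).op ≫
        (homOfLE (U.ι.image_mono (U.ι.preimage_mono hVW))).op := Subsingleton.elim _ _
  rw [e₁, Functor.map_comp, Category.assoc, ← Category.assoc _ (appImage e _), hn, Category.assoc,
    ← Functor.map_comp, ← Functor.map_comp]
  exact congrArg (fun t => _ ≫ _ ≫ N.presheaf.map t) (Subsingleton.elim _ _)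

theorem locApp_smul {W : X.Opens} (h : W ≤ U) (r : Γ(X, W)) (x : Γ(M, W)) :
    locApp U e h (r • x) = r • locApp U e h x := by
  simp only [locApp, ConcreteCategory.comp_apply]
  rw [Scheme.Modules.map_smul, appImage_smul, Scheme.Modules.map_smul]
  refine congrArg (· • _) ?_
  rw [← ConcreteCategory.comp_apply, ← X.presheaf.map_comp]
  have : (eqToHom (image_preimage_of_le h)).op ≫ (eqToHom (image_preimage_of_le h).symm).op =
      𝟙 (op W) := Subsingleton.elim _ _
  rw [this, X.presheaf.map_id]
  rfl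

theorem locApp_id {W : X.Opens} (h : W ≤ U) :
    locApp U (𝟙 ((Scheme.Modules.restrictFunctor U.ι).obj M)) h = 𝟙 _ := by
  show M.presheaf.map _ ≫ 𝟙 _ ≫ M.presheaf.map _ = _
  rw [Category.id_comp, ← Functor.map_comp, ← M.presheaf.map_id]
  exact congrArg M.presheaf.map (Subsingleton.elim _ _)

theorem locApp_comp
    (f : (Scheme.Modules.restrictFunctor U.ι).obj N ⟶ (Scheme.Modules.restrictFunctor U.ι).obj P)
    {W : X.Opens} (h : W ≤ U) : locApp U (e ≫ f) h = locApp U e h ≫ locApp U f h := by
  have hc : N.presheaf.map (eqToHom (image_preimage_of_le h).symm).op ≫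
      N.presheaf.map (eqToHom (image_preimage_of_le h)).op = 𝟙 _ := by
    rw [← Functor.map_comp, ← N.presheaf.map_id]
    exact congrArg N.presheaf.map (Subsingleton.elim _ _)
  show M.presheaf.map _ ≫ (appImage e _ ≫ appImage f _) ≫ P.presheaf.map _ = _
  simp only [locApp, Category.assoc]
  rw [← Category.assoc (N.presheaf.map _), hc, Category.id_comp]

section Family

variable {ι : Type u} {V : ι → X.Opens}

/-- The sheaf of abelian groups of a module. -/
abbrev sheafOf (M : X.Modules) : TopCat.Sheaf Ab X := ⟨M.presheaf, M.isSheaf⟩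

theorem cover_inf (hV : ⨆ i, V i = ⊤) (W : X.Opens) : W ≤ ⨆ i, W ⊓ V i := by
  rw [← inf_iSup_eq, hV, inf_top_eq]

/-- Morphisms agreeing on a cover are equal. -/
theorem hom_ext_of_cover (hV : ⨆ i, V i = ⊤) {φ ψ : M ⟶ N}
    (h : ∀ i (W : X.Opens), W ≤ V i → φ.app W = ψ.app W) : φ = ψ := by
  refine Scheme.Modules.hom_ext _ _ fun W => ?_
  ext x
  refine (sheafOf N).eq_of_locally_eq' (fun i => W ⊓ V i) W (fun i => homOfLE inf_le_left)
    (cover_inf hV W) _ _ fun i => ?_
  have hφ := ConcreteCategory.congr_hom (φ.mapPresheaf.naturality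
    (homOfLE (inf_le_left : W ⊓ V i ≤ W)).op) x
  have hψ := ConcreteCategory.congr_hom (ψ.mapPresheaf.naturality
    (homOfLE (inf_le_left : W ⊓ V i ≤ W)).op) x
  simp only [ConcreteCategory.comp_apply, Scheme.Modules.mapPresheaf_app] at hφ hψ
  show N.presheaf.map _ (φ.app W x) = N.presheaf.map _ (ψ.app W x)
  rw [← hφ, ← hψ, h i _ inf_le_right]

/-- Compatible morphisms over a cover glue. -/
theorem exists_hom (hV : ⨆ i, V i = ⊤)
    (e : ∀ i, (Scheme.Modules.restrictFunctor (V i).ι).obj M ⟶
      (Scheme.Modules.restrictFunctor (V i).ι).obj N)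
    (he : ∀ i j (W : X.Opens) (hi : W ≤ V i) (hj : W ≤ V j),
      locApp (V i) (e i) hi = locApp (V j) (e j) hj) :
    ∃ φ : M ⟶ N, ∀ i (W : X.Opens) (h : W ≤ V i), φ.app W = locApp (V i) (e i) h := by
  have hgl : ∀ (W : X.Opens) (x : Γ(M, W)), ∃! t : Γ(N, W), ∀ i,
      N.presheaf.map (homOfLE (inf_le_left : W ⊓ V i ≤ W)).op t =
        locApp (V i) (e i) inf_le_right
          (M.presheaf.map (homOfLE (inf_le_left : W ⊓ V i ≤ W)).op x) := by
    intro W x
    refine (sheafOf N).existsUnique_gluing' (fun i => W ⊓ V i) W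
      (fun i => homOfLE inf_le_left) (cover_inf hV W) _ ?_
    intro i j
    have hi : (W ⊓ V i) ⊓ (W ⊓ V j) ≤ V i := inf_le_left.trans inf_le_right
    have hj : (W ⊓ V i) ⊓ (W ⊓ V j) ≤ V j := inf_le_right.trans inf_le_right
    show (locApp (V i) (e i) _ ≫ N.presheaf.map (homOfLE inf_le_left).op) _ =
      (locApp (V j) (e j) _ ≫ N.presheaf.map (homOfLE inf_le_right).op) _
    rw [← locApp_map, ← locApp_map, he i j _ hi hj]
    show locApp (V j) (e j) hj ((M.presheaf.map _ ≫ M.presheaf.map _) x) =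
      locApp (V j) (e j) hj ((M.presheaf.map _ ≫ M.presheaf.map _) x)
    rw [← Functor.map_comp, ← Functor.map_comp]
    rfl
  choose f hf hfu using hgl
  simp only at hf hfu
  -- the components commute with restriction
  have hmap : ∀ {W' W : X.Opens} (hW : W' ≤ W) (x : Γ(M, W)),
      N.presheaf.map (homOfLE hW).op (f W x) = f W' (M.presheaf.map (homOfLE hW).op x) := by
    intro W' W hW x
    refine hfu W' _ _ fun i => ?_
    have hle : W' ⊓ V i ≤ W ⊓ V i := inf_le_inf_right _ hW
    have h := congrArg (N.presheaf.map (homOfLE hle).op) (hf W x i)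
    rw [← ConcreteCategory.comp_apply, ← Functor.map_comp] at h
    rw [← ConcreteCategory.comp_apply, ← Functor.map_comp]
    refine h.trans ?_
    rw [← ConcreteCategory.comp_apply, ← ConcreteCategory.comp_apply (M.presheaf.map _),
      ← locApp_map, ← Category.assoc, ← Functor.map_comp]
    simp only [← ConcreteCategory.comp_apply, ← Functor.map_comp]
    rfl
  have hadd : ∀ (W : X.Opens) (x y : Γ(M, W)), f W (x + y) = f W x + f W y := fun W x y =>
    (hfu W _ _ fun i => by rw [map_add, map_add, map_add, hf W x i, hf W y i]).symm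
  let φp : M.presheaf ⟶ N.presheaf :=
    { app := fun W => AddCommGrpCat.ofHom (AddMonoidHom.mk' (f W.unop) (hadd W.unop))
      naturality := fun W W' g => by
        ext x
        exact (hmap (leOfHom g.unop) x).symm }
  have hsmul : ∀ (W : X.Opens) (r : Γ(X, W)) (x : Γ(M, W)), f W (r • x) = r • f W x :=
    fun W r x => (hfu W _ _ fun i => by
      rw [Scheme.Modules.map_smul, Scheme.Modules.map_smul, locApp_smul, hf W x i]).symm
  let φv : M.val ⟶ N.val := PresheafOfModules.homMk φp fun W r x => hsmul W.unop r x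
  refine ⟨(Scheme.Modules.fullyFaithfulToPresheafOfModules).preimage φv, fun i W h => ?_⟩
  ext x
  show f W x = locApp (V i) (e i) h x
  refine (hfu W x _ fun j => ?_).symm
  rw [← ConcreteCategory.comp_apply, ← ConcreteCategory.comp_apply, ← locApp_map,
    he i j _ (inf_le_left.trans h) inf_le_right]

/-- Compatible isomorphisms over a cover glue. -/
theorem exists_iso_of_locApp (hV : ⨆ i, V i = ⊤)
    (e : ∀ i, (Scheme.Modules.restrictFunctor (V i).ι).obj M ≅
      (Scheme.Modules.restrictFunctor (V i).ι).obj N)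
    (he : ∀ i j (W : X.Opens) (hi : W ≤ V i) (hj : W ≤ V j),
      locApp (V i) (e i).hom hi = locApp (V j) (e j).hom hj) :
    ∃ φ : M ≅ N, ∀ i (W : X.Opens) (h : W ≤ V i), φ.hom.app W = locApp (V i) (e i).hom h := by
  have hinv : ∀ i (W : X.Opens) (h : W ≤ V i),
      locApp (V i) (e i).inv h ≫ locApp (V i) (e i).hom h = 𝟙 _ ∧
        locApp (V i) (e i).hom h ≫ locApp (V i) (e i).inv h = 𝟙 _ := fun i W h => by
    rw [← locApp_comp, ← locApp_comp, Iso.inv_hom_id, Iso.hom_inv_id]
    exact ⟨locApp_id h, locApp_id h⟩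
  have he' : ∀ i j (W : X.Opens) (hi : W ≤ V i) (hj : W ≤ V j),
      locApp (V i) (e i).inv hi = locApp (V j) (e j).inv hj := fun i j W hi hj => by
    calc locApp (V i) (e i).inv hi
        = locApp (V i) (e i).inv hi ≫ locApp (V j) (e j).hom hj ≫ locApp (V j) (e j).inv hj := by
          rw [(hinv j W hj).2, Category.comp_id]
      _ = locApp (V j) (e j).inv hj := by
          rw [← he i j W hi hj, ← Category.assoc, (hinv i W hi).1, Category.id_comp]
  obtain ⟨φ, hφ⟩ := exists_hom hV (fun i => (e i).hom) he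
  obtain ⟨ψ, hψ⟩ := exists_hom hV (fun i => (e i).inv) he'
  refine ⟨⟨φ, ψ, hom_ext_of_cover hV fun i W h => ?_, hom_ext_of_cover hV fun i W h => ?_⟩,
    fun i W h => hφ i W h⟩
  · rw [Scheme.Modules.Hom.comp_app, Scheme.Modules.Hom.id_app, hφ i W h, hψ i W h]
    exact (hinv i W h).2
  · rw [Scheme.Modules.Hom.comp_app, Scheme.Modules.Hom.id_app, hφ i W h, hψ i W h]
    exact (hinv i W h).1

end Family

/-- The composite with the comparison maps of a smaller open, on global sections. -/
theorem locApp_eq_homOfLE {W : X.Opens} (h : W ≤ U)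
    (e : (Scheme.Modules.restrictFunctor U.ι).obj M ≅ (Scheme.Modules.restrictFunctor U.ι).obj N) :
    locApp U e.hom h = M.presheaf.map (eqToHom W.ι_image_top).op ≫
      ((Scheme.Modules.restrictFunctorCongr (X.homOfLE_ι h).symm ≪≫
          Scheme.Modules.restrictFunctorComp (X.homOfLE h) U.ι).app M ≪≫
        (Scheme.Modules.restrictFunctor (X.homOfLE h)).mapIso e ≪≫
        (Scheme.Modules.restrictFunctorCongr (X.homOfLE_ι h).symm ≪≫
          Scheme.Modules.restrictFunctorComp (X.homOfLE h) U.ι).symm.app N).hom.app ⊤ ≫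
      N.presheaf.map (eqToHom W.ι_image_top.symm).op := by
  have hQ : U.ι ''ᵁ ((X.homOfLE h) ''ᵁ ⊤) = W := by
    rw [← Scheme.Hom.comp_image]
    simp
  rw [locApp_eq e.hom h _ hQ]
  simp only [Iso.trans_hom, Iso.app_hom, Iso.symm_hom, Iso.trans_inv, Functor.mapIso_hom,
    Scheme.Modules.Hom.comp_app, NatTrans.comp_app,
    Scheme.Modules.restrictFunctorComp_hom_app_app, Scheme.Modules.restrictFunctorComp_inv_app_app,
    Scheme.Modules.restrictFunctorCongr_hom_app_app,
    Scheme.Modules.restrictFunctorCongr_inv_app_app]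
  show _ = M.presheaf.map _ ≫ ((M.presheaf.map _ ≫ M.presheaf.map _) ≫
    appImage e.hom _ ≫ (N.presheaf.map _ ≫ N.presheaf.map _)) ≫ N.presheaf.map _
  simp only [Category.assoc, ← Functor.map_comp]
  simp only [← Category.assoc, ← Functor.map_comp]
  rfl

end FLTAgent.JacRep.Glue
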