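import Fermat.Agent.JacRep.Sheaf.IsoGlue

/-!
# Gluing sheaves of modules along a cocycle

`exists_gluedModules`: modules `F i` on the members of a family of opens `V i`, with isomorphisms
on the pairwise intersections satisfying the cocycle condition, come from a module `N` with
isomorphisms `N|V i ≅ F i|V i` compatible with them. The sections of `N` over `W` are the matched
families of sections over the `W ⊓ V i`.
-/

set_option autoImplicit false
set_option linter.style.haveILetI false
set_option linter.unusedVariables false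

noncomputable section

open CategoryTheory CategoryTheory.Limits AlgebraicGeometry Opposite

universe u

namespace FLTAgent.JacRep.Glue

variable {X : Scheme.{u}} {M N : X.Modules}

/-- Restriction of sections. -/
def resLE (M : X.Modules) {W' W : X.Opens} (h : W' ≤ W) : Γ(M, W) →+ Γ(M, W') :=
  (M.presheaf.map (homOfLE h).op).hom

theorem resLE_resLE {W'' W' W : X.Opens} (h' : W'' ≤ W') (h : W' ≤ W) (x : Γ(M, W)) :
    resLE M h' (resLE M h x) = resLE M (h'.trans h) x :=
  (ConcreteCategory.congr_hom (M.presheaf.map_comp (homOfLE h).op (homOfLE h').op) x).symm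

theorem resLE_self {W : X.Opens} (h : W ≤ W) (x : Γ(M, W)) : resLE M h x = x :=
  ConcreteCategory.congr_hom (M.presheaf.map_id (op W)) x

theorem resLE_smul {W' W : X.Opens} (h : W' ≤ W) (r : Γ(X, W)) (x : Γ(M, W)) :
    resLE M h (r • x) = X.presheaf.map (homOfLE h).op r • resLE M h x :=
  Scheme.Modules.map_smul M (homOfLE h) r x

theorem resLE_locApp {U : X.Opens}
    (e : (Scheme.Modules.restrictFunctor U.ι).obj M ⟶ (Scheme.Modules.restrictFunctor U.ι).obj N)
    {V W : X.Opens} (hVW : V ≤ W) (h : W ≤ U) (x : Γ(M, W)) :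
    resLE N hVW (locApp U e h x) = locApp U e (hVW.trans h) (resLE M hVW x) :=
  (ConcreteCategory.congr_hom (locApp_map e hVW h) x).symm

theorem ext_of_cover {ι : Type u} {V : ι → X.Opens} {W : X.Opens} (hW : W ≤ ⨆ i, V i)
    (hV : ∀ i, V i ≤ W) {x y : Γ(M, W)} (h : ∀ i, resLE M (hV i) x = resLE M (hV i) y) : x = y :=
  (sheafOf M).eq_of_locally_eq' V W (fun i => homOfLE (hV i)) hW x y h

theorem image_ι_le (U : X.Opens) (Q : U.toScheme.Opens) : U.ι ''ᵁ Q ≤ U := by
  rintro _ ⟨z, -, rfl⟩
  exact z.2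

section Descent

variable {ι : Type u} (V : ι → X.Opens) (F : ι → X.Modules)
  (g : ∀ i j, (Scheme.Modules.restrictFunctor (V i ⊓ V j).ι).obj (F i) ≅
    (Scheme.Modules.restrictFunctor (V i ⊓ V j).ι).obj (F j))

/-- Families of sections matched by the transition maps. -/
def gluedGroup (W : X.Opens) : AddSubgroup (∀ i, Γ(F i, W ⊓ V i)) where
  carrier := {s | ∀ (i j : ι) (W' : X.Opens) (hi : W' ≤ W ⊓ V i) (hj : W' ≤ W ⊓ V j),
    locApp (V i ⊓ V j) (g i j).hom
        (le_inf (hi.trans inf_le_right) (hj.trans inf_le_right)) (resLE (F i) hi (s i)) =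
      resLE (F j) hj (s j)}
  zero_mem' := fun i j W' hi hj => by simp
  add_mem' := fun {a b} ha hb i j W' hi hj => by
    simp only [Pi.add_apply, map_add, ha i j W' hi hj, hb i j W' hi hj]
  neg_mem' := fun {a} ha i j W' hi hj => by
    simp only [Pi.neg_apply, map_neg, ha i j W' hi hj]

theorem mem_gluedGroup {W : X.Opens} {s : ∀ i, Γ(F i, W ⊓ V i)} :
    s ∈ gluedGroup V F g W ↔ ∀ (i j : ι) (W' : X.Opens) (hi : W' ≤ W ⊓ V i) (hj : W' ≤ W ⊓ V j),
      locApp (V i ⊓ V j) (g i j).hom
          (le_inf (hi.trans inf_le_right) (hj.trans inf_le_right)) (resLE (F i) hi (s i)) =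
        resLE (F j) hj (s j) := Iff.rfl

theorem gluedGroup_ext {W : X.Opens} {s t : gluedGroup V F g W} (h : ∀ i, s.1 i = t.1 i) : s = t :=
  Subtype.ext (funext h)

/-- Restriction of matched families. -/
def gluedRes {W' W : X.Opens} (h : W' ≤ W) : gluedGroup V F g W →+ gluedGroup V F g W' where
  toFun s := ⟨fun i => resLE (F i) (inf_le_inf_right _ h) (s.1 i), fun i j W'' hi hj => by
    rw [resLE_resLE, resLE_resLE]
    exact s.2 i j W'' _ _⟩
  map_zero' := gluedGroup_ext V F g fun i => map_zero _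
  map_add' s t := gluedGroup_ext V F g fun i => map_add _ _ _

/-- The glued abelian presheaf. -/
def gluedPresheaf : TopCat.Presheaf Ab.{u} X where
  obj W := AddCommGrpCat.of (gluedGroup V F g W.unop)
  map f := AddCommGrpCat.ofHom (gluedRes V F g (leOfHom f.unop))
  map_id W := by
    refine AddCommGrpCat.hom_ext (AddMonoidHom.ext fun (s : gluedGroup V F g W.unop) => ?_)
    exact gluedGroup_ext V F g fun i => resLE_self (M := F i) le_rfl (s.1 i)
  map_comp {A B D} f f' := by
    refine AddCommGrpCat.hom_ext (AddMonoidHom.ext fun (s : gluedGroup V F g A.unop) => ?_)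
    exact gluedGroup_ext V F g fun i => (resLE_resLE (M := F i)
      (inf_le_inf_right _ (leOfHom f'.unop)) (inf_le_inf_right _ (leOfHom f.unop)) (s.1 i)).symm

/-- Restriction of functions to the pieces. -/
def gluedScalar (W : X.Opens) (i : ι) : Γ(X, W) →+* Γ(X, W ⊓ V i) :=
  (X.presheaf.map (homOfLE (inf_le_left : W ⊓ V i ≤ W)).op).hom

/-- The action of functions. -/
instance gluedSMul (W : X.Opens) : SMul Γ(X, W) (gluedGroup V F g W) where
  smul (r : Γ(X, W)) (s : gluedGroup V F g W) :=
    ⟨fun i => gluedScalar V W i r • s.1 i,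
    fun i j W' hi hj => by
      rw [resLE_smul, resLE_smul, locApp_smul, s.2 i j W' hi hj]
      congr 1
      show (X.presheaf.map _ ≫ X.presheaf.map _) r = (X.presheaf.map _ ≫ X.presheaf.map _) r
      rw [← Functor.map_comp, ← Functor.map_comp]
      rfl⟩

instance gluedModule (W : X.Opens) : Module Γ(X, W) (gluedGroup V F g W) where
  one_smul s := gluedGroup_ext V F g fun i => by
    show gluedScalar V W i 1 • s.1 i = s.1 i
    rw [map_one, one_smul]
  mul_smul r r' s := gluedGroup_ext V F g fun i => by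
    show gluedScalar V W i (r * r') • s.1 i =
      gluedScalar V W i r • gluedScalar V W i r' • s.1 i
    rw [map_mul, mul_smul]
  smul_zero r := gluedGroup_ext V F g fun i => smul_zero _
  smul_add r s t := gluedGroup_ext V F g fun i => smul_add _ _ _
  add_smul r r' s := gluedGroup_ext V F g fun i => by
    show gluedScalar V W i (r + r') • s.1 i =
      gluedScalar V W i r • s.1 i + gluedScalar V W i r' • s.1 i
    rw [map_add, add_smul]
  zero_smul s := gluedGroup_ext V F g fun i => by
    show gluedScalar V W i 0 • s.1 i = 0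
    rw [map_zero, zero_smul]

instance gluedPresheafModule (W : (TopologicalSpace.Opens X)ᵒᵖ) :
    Module (X.ringCatSheaf.obj.obj W) ((gluedPresheaf V F g).obj W) :=
  gluedModule V F g W.unop

/-- The glued presheaf of modules. -/
def gluedPresheafOfModules : PresheafOfModules.{u} X.ringCatSheaf.obj :=
  PresheafOfModules.ofPresheaf (gluedPresheaf V F g) fun W W' f r s =>
    gluedGroup_ext V F g fun i => by
      show resLE (F i) (inf_le_inf_right _ (leOfHom f.unop))
          (X.presheaf.map (homOfLE (inf_le_left : W.unop ⊓ V i ≤ W.unop)).op r • s.1 i) =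
        X.presheaf.map (homOfLE (inf_le_left : W'.unop ⊓ V i ≤ W'.unop)).op (X.presheaf.map f r) •
          resLE (F i) (inf_le_inf_right _ (leOfHom f.unop)) (s.1 i)
      rw [resLE_smul]
      congr 1
      show (X.presheaf.map _ ≫ X.presheaf.map _) r = (X.presheaf.map f ≫ X.presheaf.map _) r
      rw [← Functor.map_comp, ← Functor.map_comp]
      rfl

theorem gluedPresheaf_isSheaf : (gluedPresheaf V F g).IsSheaf := by
  rw [TopCat.Presheaf.isSheaf_iff_isSheafUniqueGluing]
  intro κ U sf hcompat
  have hc : ∀ (a b : κ) (i : ι),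
      resLE (F i) (inf_le_inf_right (V i) (inf_le_left : U a ⊓ U b ≤ U a)) ((sf a).1 i) =
        resLE (F i) (inf_le_inf_right (V i) (inf_le_right : U a ⊓ U b ≤ U b)) ((sf b).1 i) :=
    fun a b i => congrFun (congrArg Subtype.val (hcompat a b)) i
  have hcov : ∀ i, iSup U ⊓ V i ≤ ⨆ a, U a ⊓ V i := fun i => (iSup_inf_eq U (V i)).le
  have hle : ∀ (i : ι) (a : κ), U a ⊓ V i ≤ iSup U ⊓ V i :=
    fun i a => inf_le_inf_right _ (le_iSup U a)
  have hex : ∀ i, ∃ x : Γ(F i, iSup U ⊓ V i), ∀ a, resLE (F i) (hle i a) x = (sf a).1 i := by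
    intro i
    obtain ⟨x, hx, -⟩ := (sheafOf (F i)).existsUnique_gluing' (fun a => U a ⊓ V i) _
      (fun a => homOfLE (hle i a)) (hcov i) (fun a => (sf a).1 i) (fun a b => by
        have h1 : (U a ⊓ V i) ⊓ (U b ⊓ V i) ≤ (U a ⊓ U b) ⊓ V i :=
          le_inf (inf_le_inf inf_le_left inf_le_left) (inf_le_left.trans inf_le_right)
        have h := congrArg (resLE (F i) h1) (hc a b i)
        rw [resLE_resLE, resLE_resLE] at h
        exact h)
    exact ⟨x, hx⟩
  choose x hx using hex
  refine ⟨⟨x, fun i j W hi hj => ?_⟩, fun a => gluedGroup_ext V F g fun i => hx i a,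
    fun t ht => gluedGroup_ext V F g fun i => ?_⟩
  · refine ext_of_cover (V := fun a => W ⊓ U a) ?_ (fun a => inf_le_left) fun a => ?_
    · rw [← inf_iSup_eq]
      exact le_inf le_rfl (hi.trans inf_le_left)
    · rw [resLE_locApp, resLE_resLE, resLE_resLE]
      have hi' : W ⊓ U a ≤ U a ⊓ V i :=
        le_inf inf_le_right (inf_le_left.trans (hi.trans inf_le_right))
      have hj' : W ⊓ U a ≤ U a ⊓ V j :=
        le_inf inf_le_right (inf_le_left.trans (hj.trans inf_le_right))
      rw [← resLE_resLE hi' (hle i a) (x i), ← resLE_resLE hj' (hle j a) (x j), hx, hx]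
      exact (sf a).2 i j _ hi' hj'
  · refine ext_of_cover (V := fun a => U a ⊓ V i) (hcov i) (hle i) fun a => ?_
    rw [hx]
    exact congrFun (congrArg Subtype.val (ht a)) i

/-- The glued module. -/
def gluedModules : X.Modules :=
  ⟨gluedPresheafOfModules V F g, gluedPresheaf_isSheaf V F g⟩

variable (hg : ∀ (i j l : ι) (W : X.Opens) (hi : W ≤ V i) (hj : W ≤ V j) (hl : W ≤ V l),
  locApp (V i ⊓ V j) (g i j).hom (le_inf hi hj) ≫ locApp (V j ⊓ V l) (g j l).hom (le_inf hj hl) =
    locApp (V i ⊓ V l) (g i l).hom (le_inf hi hl))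

/-- The component of a section. -/
def gluedProj (i : ι) {W : X.Opens} (h : W ≤ V i) : gluedGroup V F g W →+ Γ(F i, W) where
  toFun s := resLE (F i) (le_inf le_rfl h) (s.1 i)
  map_zero' := map_zero _
  map_add' s t := map_add _ _ _

theorem gluedProj_smul (i : ι) {W : X.Opens} (h : W ≤ V i) (r : Γ(X, W))
    (s : gluedGroup V F g W) : gluedProj V F g i h (r • s) = r • gluedProj V F g i h s := by
  show resLE (F i) _ (gluedScalar V W i r • s.1 i) = r • resLE (F i) _ (s.1 i)
  rw [resLE_smul]
  congr 1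
  show (X.presheaf.map _ ≫ X.presheaf.map _) r = r
  rw [← Functor.map_comp]
  exact ConcreteCategory.congr_hom (X.presheaf.map_id _) _

include hg in
theorem bijective_gluedProj (i : ι) {W : X.Opens} (h : W ≤ V i) :
    Function.Bijective (gluedProj V F g i h) := by
  have hid : ∀ (W : X.Opens) (hW : W ≤ V i) (z : Γ(F i, W)),
      locApp (V i ⊓ V i) (g i i).hom (le_inf hW hW) z = z := fun W hW z => by
    have h1 := ConcreteCategory.congr_hom (hg i i i W hW hW hW) z
    rw [ConcreteCategory.comp_apply] at h1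
    have hinv : ∀ w, locApp (V i ⊓ V i) (g i i).inv (le_inf hW hW)
        (locApp (V i ⊓ V i) (g i i).hom (le_inf hW hW) w) = w := fun w => by
      rw [← ConcreteCategory.comp_apply, ← locApp_comp, Iso.hom_inv_id, locApp_id,
        ConcreteCategory.id_apply]
    have h2 := congrArg (locApp (V i ⊓ V i) (g i i).inv (le_inf hW hW)) h1
    rwa [hinv, hinv] at h2
  refine ⟨fun s t hst => gluedGroup_ext V F g fun j => ?_, fun z => ?_⟩
  · have hs := s.2 i j (W ⊓ V j) (le_inf inf_le_left (inf_le_left.trans h)) le_rfl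
    have ht := t.2 i j (W ⊓ V j) (le_inf inf_le_left (inf_le_left.trans h)) le_rfl
    rw [resLE_self] at hs ht
    rw [← hs, ← ht]
    congr 1
    have h' := congrArg (resLE (F i) (inf_le_left : W ⊓ V j ≤ W)) hst
    simpa only [gluedProj, AddMonoidHom.coe_mk, ZeroHom.coe_mk, resLE_resLE] using h'
  · refine ⟨⟨fun j => locApp (V i ⊓ V j) (g i j).hom
      (le_inf (inf_le_left.trans h) inf_le_right) (resLE (F i) inf_le_left z),
      fun j l W' hj hl => ?_⟩, ?_⟩
    · rw [resLE_locApp, resLE_locApp, resLE_resLE, resLE_resLE, ← ConcreteCategory.comp_apply,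
        hg i j l W' ((hj.trans inf_le_left).trans h) (hj.trans inf_le_right) (hl.trans inf_le_right)]
    · show resLE (F i) _ (locApp (V i ⊓ V i) (g i i).hom
        (le_inf (inf_le_left.trans h) inf_le_right) _) = z
      rw [hid _ inf_le_right, resLE_resLE, resLE_self]

include hg in
/-- Modules glue along a cocycle. -/
theorem exists_gluedModules :
    ∃ (N : X.Modules) (e : ∀ i, (Scheme.Modules.restrictFunctor (V i).ι).obj N ≅
        (Scheme.Modules.restrictFunctor (V i).ι).obj (F i)),
      ∀ (i j : ι) (W : X.Opens) (hi : W ≤ V i) (hj : W ≤ V j),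
        locApp (V i) (e i).hom hi ≫ locApp (V i ⊓ V j) (g i j).hom (le_inf hi hj) =
          locApp (V j) (e j).hom hj := by
  let φ : ∀ (i : ι) (Q : (V i).toScheme.Opens),
      Γ(gluedModules V F g, (V i).ι ''ᵁ Q) →+ Γ(F i, (V i).ι ''ᵁ Q) := fun i Q =>
    gluedProj V F g i (image_ι_le _ Q)
  let ψ : ∀ i, (Scheme.Modules.restrictFunctor (V i).ι).obj (gluedModules V F g) ⟶
      (Scheme.Modules.restrictFunctor (V i).ι).obj (F i) := fun i =>
    (Scheme.Modules.fullyFaithfulToPresheafOfModules).preimage <| PresheafOfModules.homMk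
      { app := fun Q => AddCommGrpCat.ofHom (φ i Q.unop)
        naturality := fun Q Q' f => by
          refine AddCommGrpCat.hom_ext (AddMonoidHom.ext fun (s : gluedGroup V F g _) => ?_)
          show φ i Q'.unop (gluedRes V F g ((V i).ι.image_mono (leOfHom f.unop)) s) =
            resLE (F i) ((V i).ι.image_mono (leOfHom f.unop)) (φ i Q.unop s)
          show resLE (F i) _ (resLE (F i) _ (s.1 i)) = resLE (F i) _ (resLE (F i) _ (s.1 i))
          rw [resLE_resLE, resLE_resLE] }
      fun Q r s => gluedProj_smul V F g i (image_ι_le _ Q.unop) (((V i).ι.appIso Q.unop).inv r) s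
  have hψ : ∀ i, IsIso (ψ i) := fun i => Scheme.Modules.Hom.isIso_iff_isIso_app.mpr fun Q =>
    (ConcreteCategory.isIso_iff_bijective _).mpr
      (bijective_gluedProj V F g hg i (image_ι_le _ Q))
  refine ⟨gluedModules V F g, fun i => (haveI := hψ i; asIso (ψ i)), fun i j W hi hj => ?_⟩
  have hproj : ∀ (i : ι) (hW : W ≤ V i) (s : Γ(gluedModules V F g, W)),
      locApp (V i) (ψ i) hW s = gluedProj V F g i hW s := fun i hW s => by
    show resLE (F i) _ (resLE (F i) _ (resLE (F i) _ (s.1 i))) = resLE (F i) _ (s.1 i)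
    rw [resLE_resLE, resLE_resLE]
  ext s
  show locApp (V i ⊓ V j) (g i j).hom (le_inf hi hj) (locApp (V i) (ψ i) hi s) =
    locApp (V j) (ψ j) hj s
  rw [hproj i hi, hproj j hj]
  exact s.2 i j W (le_inf le_rfl hi) (le_inf le_rfl hj)

end Descent

end FLTAgent.JacRep.Glue
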