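import Fermat.Agent.JacRep.Sheaf.Normal
import Fermat.Agent.JacRep.Sheaf.GlueModules

/-!
# Descent of rigidified modules along an open cover of the base

For `p : X ⟶ T` with a section `e` along which it is `Rigid`: rigidified modules with frames which
are isomorphic over a cover of `T` are isomorphic (`nonempty_iso_of_cover`), and rigidified modules
on the members which are isomorphic on overlaps glue (`exists_glue_modules`). Normalising the
isomorphisms along `e` makes them unique, hence compatible. The file also moves frames and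
rigidifications to pushforwards along open immersions (`nonempty_locRig_pushforward`) and shows
that modules with frames are invertible (`isInvertible_of_hasFrames`).
-/

set_option autoImplicit false
set_option linter.style.haveILetI false
set_option maxHeartbeats 800000

noncomputable section

open CategoryTheory CategoryTheory.Limits AlgebraicGeometry TopologicalSpace Opposite

universe u

namespace FLTAgent.JacRep.Sheaf

open Glue (locApp)

variable {X T : Scheme.{u}}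

section Transfer

variable {X' : Scheme.{u}} (J : X' ⟶ X) [IsOpenImmersion J]

/-- Isomorphisms over an open do not depend on the immersion defining it. -/
theorem nonempty_restrict_iso_of_range {M N : X.Modules} {Y : Scheme.{u}} (J' : Y ⟶ X)
    [IsOpenImmersion J'] (hr : J'.opensRange = J.opensRange)
    (φ : M.restrict J ≅ N.restrict J) : Nonempty (M.restrict J' ≅ N.restrict J') := by
  let e := IsOpenImmersion.isoOfRangeEq J' J (congrArg (fun U : X.Opens => (U : Set X)) hr)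
  have h : e.hom ≫ J = J' := IsOpenImmersion.isoOfRangeEq_hom_fac _ _ _
  let η := Scheme.Modules.restrictFunctorCongr h.symm ≪≫
    Scheme.Modules.restrictFunctorComp e.hom J
  exact ⟨η.app M ≪≫ (Scheme.Modules.restrictFunctor e.hom).mapIso φ ≪≫ (η.app N).symm⟩

theorem bijective_app {W : X.Opens} (h : W ≤ J.opensRange) : Function.Bijective (J.app W) :=
  haveI := J.isIso_app W h
  ConcreteCategory.bijective_of_isIso _

theorem IsFrame.pushforward {M : X'.Modules} {W : X.Opens} (hW : W ≤ J.opensRange)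
    {s : Γ(M, J ⁻¹ᵁ W)} (hs : IsFrame M s) :
    IsFrame (M := (Scheme.Modules.pushforward J).obj M) (U := W) s := fun V h =>
  (hs (J ⁻¹ᵁ V) (J.preimage_mono h)).comp (bijective_app J (h.trans hW))

theorem IsFrame.of_pushforward {M : X'.Modules} {W : X.Opens} (hW : W ≤ J.opensRange)
    {s : Γ(M, J ⁻¹ᵁ W)} (hs : IsFrame (M := (Scheme.Modules.pushforward J).obj M) (U := W) s) :
    IsFrame M s := fun V' h => by
  obtain ⟨V, hV, rfl⟩ : ∃ V : X.Opens, V ≤ W ∧ J ⁻¹ᵁ V = V' :=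
    ⟨J ''ᵁ V', (J.image_mono h).trans (J.image_preimage_le W), J.preimage_image_eq V'⟩
  exact (Function.Bijective.of_comp_iff
    (fun r : Γ(X', J ⁻¹ᵁ V) => r • Sheaf.res M h s) (bijective_app J (hV.trans hW))).mp (hs V hV)

theorem hasFramesOn_pushforward {M : X'.Modules} (hM : HasFrames M) :
    HasFramesOn ((Scheme.Modules.pushforward J).obj M) J.opensRange := fun y hy => by
  obtain ⟨x, rfl⟩ := hy
  obtain ⟨U, s, hxU, hs⟩ := hM x
  exact ⟨J ''ᵁ U, Sheaf.res M (J.preimage_image_eq U).le s, ⟨x, hxU, rfl⟩,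
    J.image_le_opensRange U, (hs.res _).pushforward J (J.image_le_opensRange U)⟩

/-- A rigidification of a module on an open gives one of its pushforward there. -/
theorem nonempty_locRig_pushforward {T' : Scheme.{u}} {e : T ⟶ X} {e' : T' ⟶ X'} {j : T' ⟶ T}
    [IsOpenImmersion j] (sq : e' ≫ J = j ≫ e) {Ω : X.Opens} (hΩ : Ω ≤ J.opensRange)
    (hj : e ⁻¹ᵁ Ω ≤ j.opensRange) {M : X'.Modules} {θ : M ⟶ rigTarget e'} (hθ : IsRig θ) :
    Nonempty (LocRig e ((Scheme.Modules.pushforward J).obj M) Ω) := by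
  have hle : ∀ W : X.Opens, j ⁻¹ᵁ (e ⁻¹ᵁ W) ≤ e' ⁻¹ᵁ (J ⁻¹ᵁ W) := fun W => by
    rw [← Scheme.Hom.comp_preimage, ← Scheme.Hom.comp_preimage, sq]
  have hb : ∀ {W : X.Opens}, W ≤ Ω → Function.Bijective (j.app (e ⁻¹ᵁ W)) := fun h =>
    bijective_app j ((e.preimage_mono h).trans hj)
  let σ : ∀ {W : X.Opens}, W ≤ Ω → Γ(M, J ⁻¹ᵁ W) → Γ(T, e ⁻¹ᵁ W) := fun {W} h s =>
    Function.surjInv (hb h).2 (resF (hle W) (rigVal θ s))
  have hσ : ∀ {W : X.Opens} (h : W ≤ Ω) (s : Γ(M, J ⁻¹ᵁ W)),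
      j.app (e ⁻¹ᵁ W) (σ h s) = resF (hle W) (rigVal θ s) := fun h s =>
    Function.surjInv_eq (hb h).2 _
  have hcoef : ∀ (W : X.Opens) (r : Γ(X, W)),
      j.app (e ⁻¹ᵁ W) (e.app W r) = resF (hle W) (e'.app (J ⁻¹ᵁ W) (J.app W r)) := fun W r =>
    ConcreteCategory.congr_hom (Scheme.Hom.congr_app sq.symm W) r
  refine ⟨⟨σ, fun {W} h s s' => (hb h).1 ?_, fun {W} h r s => (hb h).1 ?_,
    fun {W V} h h' s => (hb (h'.trans h)).1 ?_, fun {U} h s hs => ?_⟩⟩
  · rw [map_add, hσ h, hσ h, hσ h, ← map_add]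
    exact congrArg (resF (hle W)) (map_add (θ.app (J ⁻¹ᵁ W)).hom s s')
  · rw [map_mul, hσ h, hσ h, hcoef, ← map_mul]
    exact congrArg (resF (hle W)) (rigVal_smul θ (J.app W r) s)
  · rw [hσ (h'.trans h)]
    refine Eq.trans ?_ (ConcreteCategory.congr_hom
      (j.naturality (homOfLE (e.preimage_mono h')).op) (σ h s)).symm
    show resF (hle V) (rigVal θ (Sheaf.res M (J.preimage_mono h') s)) =
      resF (j.preimage_mono (e.preimage_mono h')) (j.app (e ⁻¹ᵁ W) (σ h s))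
    rw [hσ h, rigVal_res, resF_resF, resF_resF]
  · have h1 : IsUnit (resF (hle U) (rigVal θ s)) :=
      (hθ.isUnit (hs.of_pushforward J (h.trans hΩ))).map (T'.presheaf.map _).hom
    rw [← hσ h s] at h1
    obtain ⟨b, hb'⟩ := isUnit_iff_exists_inv.mp h1
    obtain ⟨c, rfl⟩ := (hb h).2 b
    exact isUnit_iff_exists_inv.mpr ⟨c, (hb h).1 (by rw [map_mul, hb', map_one])⟩

end Transfer

/-- Modules with frames are invertible. -/
theorem isInvertible_of_hasFrames {M : X.Modules} (hM : HasFrames M) :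
    Scheme.Modules.IsInvertible M := by
  refine ⟨fun x => ?_⟩
  obtain ⟨U, s, hxU, hs⟩ := hM x
  refine ⟨U, hxU, ?_⟩
  let N := M.restrict U.ι
  let b : SheafOfModules.sections N :=
    PresheafOfModules.sectionsMk (fun W => Sheaf.res M (image_le U W.unop) s) fun V W f => by
      show Sheaf.res M (U.ι.image_mono (leOfHom f.unop)) (Sheaf.res M _ s) = _
      rw [res_res]
  let hom' : unitMod U.toScheme ⟶ N := (SheafOfModules.unitHomEquiv N).symm b
  haveI : IsIso hom' := Scheme.Modules.Hom.isIso_iff_isIso_app.mpr fun Q =>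
    (ConcreteCategory.isIso_iff_bijective _).mpr
      ((hs _ (image_le U Q)).comp (ConcreteCategory.bijective_of_isIso (U.ι.appIso Q).inv))
  exact ⟨((Scheme.Modules.restrictFunctorIsoPullback U.ι).app M).symm ≪≫ (asIso hom').symm⟩

section Cover

variable {p : X ⟶ T} {e : T ⟶ X} {ι : Type u} {V : ι → T.Opens}

theorem iSup_preimage (hV : ⨆ i, V i = ⊤) : ⨆ i, p ⁻¹ᵁ V i = (⊤ : X.Opens) :=
  eq_top_iff.mpr fun x _ => by
    obtain ⟨i, hi⟩ := Opens.mem_iSup.mp (hV.ge (Opens.mem_top (p.base x)))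
    exact Opens.mem_iSup.mpr ⟨i, hi⟩

/-- Rigidified modules agreeing on a cover of the base agree. -/
theorem nonempty_iso_of_cover (hp : Rigid p e) (hep : e ≫ p = 𝟙 T) (hV : ⨆ i, V i = ⊤)
    {M N : X.Modules} (hM : HasFrames M) {θ : M ⟶ rigTarget e} (hθ : IsRig θ)
    {θ' : N ⟶ rigTarget e} (hθ' : IsRig θ')
    (φ : ∀ i, M.restrict (p ⁻¹ᵁ V i).ι ≅ N.restrict (p ⁻¹ᵁ V i).ι) : Nonempty (M ≅ N) := by
  choose ψ hψ using fun i =>
    exists_isNormalised hep (hM.on _) (hθ.loc (p ⁻¹ᵁ V i)) (hθ'.loc _) (φ i)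
  obtain ⟨Φ, -⟩ := Glue.exists_iso_of_locApp (iSup_preimage hV) ψ fun i l W hi hl => by
    have hle : p ⁻¹ᵁ (V i ⊓ V l) ≤ p ⁻¹ᵁ V i := fun x hx => hx.1
    have hle' : p ⁻¹ᵁ (V i ⊓ V l) ≤ p ⁻¹ᵁ V l := fun x hx => hx.2
    have hW : W ≤ p ⁻¹ᵁ (V i ⊓ V l) := fun x hx => ⟨hi hx, hl hx⟩
    obtain ⟨a, ha⟩ := exists_iso_mono (ψ i) hle
    obtain ⟨b, hb⟩ := exists_iso_mono (ψ l) hle'
    have h := eq_of_isNormalised hp (hM.on _) (θ := hθ.loc (p ⁻¹ᵁ (V i ⊓ V l)))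
      (θ' := hθ'.loc _) a b
      (fun W' h s => by rw [ha]; exact hψ i W' (h.trans hle) s)
      (fun W' h s => by rw [hb]; exact hψ l W' (h.trans hle') s) hW
    refine ConcreteCategory.hom_ext _ _ fun s => ?_
    rw [← ha hW, ← hb hW, h]
  exact ⟨Φ⟩

/-- Rigidified modules on a cover of the base isomorphic on overlaps glue. -/
theorem exists_glue_modules (hp : Rigid p e) (hep : e ≫ p = 𝟙 T) (hV : ⨆ i, V i = ⊤)
    (F : ι → X.Modules) (hF : ∀ i, HasFramesOn (F i) (p ⁻¹ᵁ V i))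
    (θ : ∀ i, LocRig e (F i) (p ⁻¹ᵁ V i))
    (g : ∀ i l, (F i).restrict (p ⁻¹ᵁ (V i ⊓ V l)).ι ≅ (F l).restrict (p ⁻¹ᵁ (V i ⊓ V l)).ι) :
    ∃ (N : X.Modules) (θN : N ⟶ rigTarget e), HasFrames N ∧ IsRig θN ∧
      ∀ i, Nonempty (N.restrict (p ⁻¹ᵁ V i).ι ≅ (F i).restrict (p ⁻¹ᵁ V i).ι) := by
  have hl : ∀ i l, p ⁻¹ᵁ (V i ⊓ V l) ≤ p ⁻¹ᵁ V i := fun i l x hx => hx.1
  have hr : ∀ i l, p ⁻¹ᵁ (V i ⊓ V l) ≤ p ⁻¹ᵁ V l := fun i l x hx => hx.2
  choose ψ hψ using fun i l => exists_isNormalised hep ((hF i).mono (hl i l))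
    ((θ i).mono (hl i l)) ((θ l).mono (hr i l)) (g i l)
  have hcoc : ∀ (i l m : ι) (W : X.Opens) (hi : W ≤ p ⁻¹ᵁ V i) (hl' : W ≤ p ⁻¹ᵁ V l)
      (hm : W ≤ p ⁻¹ᵁ V m),
      locApp (p ⁻¹ᵁ V i ⊓ p ⁻¹ᵁ V l) (ψ i l).hom (le_inf hi hl') ≫
          locApp (p ⁻¹ᵁ V l ⊓ p ⁻¹ᵁ V m) (ψ l m).hom (le_inf hl' hm) =
        locApp (p ⁻¹ᵁ V i ⊓ p ⁻¹ᵁ V m) (ψ i m).hom (le_inf hi hm) := by
    intro i l m W hi hl' hm
    have h₁ : p ⁻¹ᵁ (V i ⊓ V l ⊓ V m) ≤ p ⁻¹ᵁ (V i ⊓ V l) := fun x hx => hx.1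
    have h₂ : p ⁻¹ᵁ (V i ⊓ V l ⊓ V m) ≤ p ⁻¹ᵁ (V l ⊓ V m) := fun x hx => ⟨hx.1.2, hx.2⟩
    have h₃ : p ⁻¹ᵁ (V i ⊓ V l ⊓ V m) ≤ p ⁻¹ᵁ (V i ⊓ V m) := fun x hx => ⟨hx.1.1, hx.2⟩
    have hW : W ≤ p ⁻¹ᵁ (V i ⊓ V l ⊓ V m) := fun x hx => ⟨⟨hi hx, hl' hx⟩, hm hx⟩
    obtain ⟨a, ha⟩ := exists_iso_mono (ψ i l) h₁
    obtain ⟨b, hb⟩ := exists_iso_mono (ψ l m) h₂
    obtain ⟨c, hc⟩ := exists_iso_mono (ψ i m) h₃
    have h := eq_of_isNormalised hp ((hF i).mono (h₁.trans (hl i l)))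
      (θ := (θ i).mono (h₁.trans (hl i l))) (θ' := (θ m).mono (h₂.trans (hr l m))) (a ≪≫ b) c
      (fun W' h s => by
        rw [Iso.trans_hom, Glue.locApp_comp]
        show (θ m).val _ (locApp _ b.hom h (locApp _ a.hom h s)) = _
        rw [ha, hb]
        exact (hψ l m W' (h.trans h₂) _).trans (hψ i l W' (h.trans h₁) s))
      (fun W' h s => by rw [hc]; exact hψ i m W' (h.trans h₃) s) hW
    rw [Iso.trans_hom, Glue.locApp_comp] at h
    refine ConcreteCategory.hom_ext _ _ fun s => ?_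
    have h' := ConcreteCategory.congr_hom h s
    rw [ConcreteCategory.comp_apply, ha, hb, hc] at h'
    exact h'
  obtain ⟨N, ε, hε⟩ := Glue.exists_gluedModules (fun i => p ⁻¹ᵁ V i) F ψ hcoc
  have hadd : ∀ (i : ι) {W : X.Opens} (h : W ≤ p ⁻¹ᵁ V i) (s s' : Γ(N, W)),
      (θ i).val h (locApp _ (ε i).hom h (s + s')) =
        (θ i).val h (locApp _ (ε i).hom h s) + (θ i).val h (locApp _ (ε i).hom h s') :=
    fun i W h s s' => by rw [map_add, (θ i).val_add]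
  choose φ hφ using fun i => exists_locHom (M := N) (N := rigTarget e) (Ω := p ⁻¹ᵁ V i)
    (fun {W} h => AddMonoidHom.mk' (M := Γ(N, W)) (G := Γ(rigTarget e, W))
      (fun s => (θ i).val h (locApp _ (ε i).hom h s)) (hadd i h))
    (fun h h' s => (congrArg ((θ i).val (h'.trans h)) (locApp_res _ h h' s)).trans
      ((θ i).val_res h h' _))
    (fun h r s => (congrArg ((θ i).val h) (Glue.locApp_smul _ h r s)).trans
      ((θ i).val_smul h r _))
  obtain ⟨θN, hθN⟩ := Glue.exists_hom (iSup_preimage hV) φ fun i l W hi hl' => by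
    refine ConcreteCategory.hom_ext _ _ fun s => ?_
    rw [hφ, hφ]
    show (θ i).val hi (locApp _ (ε i).hom hi s) = (θ l).val hl' (locApp _ (ε l).hom hl' s)
    rw [← hε i l W hi hl', ConcreteCategory.comp_apply]
    exact (hψ i l W (le_inf hi hl') _).symm
  have hfr : ∀ i, HasFramesOn N (p ⁻¹ᵁ V i) := fun i y hy => by
    obtain ⟨U, s, hyU, hU, hs⟩ := hF i y hy
    exact ⟨U, locApp _ (ε i).inv hU s, hyU, hU, IsFrame.locApp (ε i).symm hU hs⟩
  have hN : HasFrames N := fun y => by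
    obtain ⟨i, hi⟩ := Opens.mem_iSup.mp ((iSup_preimage hV).ge (Opens.mem_top y))
    obtain ⟨U, s, hyU, -, hs⟩ := hfr i y hi
    exact ⟨U, s, hyU, hs⟩
  refine ⟨N, θN, hN, fun x => ?_, fun i => ⟨ε i⟩⟩
  obtain ⟨i, hi⟩ := Opens.mem_iSup.mp ((iSup_preimage hV).ge (Opens.mem_top (e.base x)))
  obtain ⟨U, s, hxU, hU, hs⟩ := hfr i _ hi
  refine ⟨U, s, ?_⟩
  have h1 : rigVal θN s = (θ i).val hU (locApp _ (ε i).hom hU s) := by
    show θN.app U s = _
    rw [hθN i U hU, hφ]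
    rfl
  rw [h1, T.basicOpen_of_isUnit ((θ i).isUnit hU (hs.locApp (ε i) hU))]
  exact hxU

end Cover

end FLTAgent.JacRep.Sheaf
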