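import Fermat.Agent.JacRep.Sheaf.Rigidity
import Fermat.Agent.JacRep.Sheaf.Descend

/-!
# Rigidified classes form a sheaf for open covers of the base

`nonempty_iso_of_agree`: rigidified line bundles on `C × T` which agree on an open cover of `T` are
isomorphic. `exists_bundle_of_cover`: rigidified line bundles on an open cover of `T` which are
isomorphic on overlaps come from one on `T`. Both are instances of the descent of rigidified
modules, the hypothesis being the rigidity of `C × T ⟶ T` along the section (`Over.rigid`).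
-/

set_option autoImplicit false
set_option linter.style.haveILetI false

noncomputable section

open CategoryTheory CategoryTheory.Limits AlgebraicGeometry AlgebraicGeometry.RelPicard
  NeronModelInfra TopologicalSpace

universe u

namespace FLTAgent.JacRep.Over

variable {k : Type u} [Field k] {Cv : Cover k} {C : Scheme.{u}}
  {c : C ⟶ Spec (CommRingCat.of k)} {ε : SchemeHomOver (𝟙 (Spec (CommRingCat.of k))) c}

theorem isOpenImmersion_baseChangeSnd {T T' : Scheme.{u}} {t : T ⟶ Spec (CommRingCat.of k)}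
    {t' : T' ⟶ Spec (CommRingCat.of k)} (ψ : SchemeHomOver t' t) [IsOpenImmersion ψ.1] :
    IsOpenImmersion (baseChangeSnd c ψ) :=
  MorphismProperty.of_isPullback (P := @IsOpenImmersion) (isPullback_baseChangeSnd c ψ).flip ‹_›

theorem opensRange_baseChangeSnd {T T' : Scheme.{u}} {t : T ⟶ Spec (CommRingCat.of k)}
    {t' : T' ⟶ Spec (CommRingCat.of k)} (ψ : SchemeHomOver t' t) [IsOpenImmersion ψ.1]
    [IsOpenImmersion (baseChangeSnd c ψ)] :
    (baseChangeSnd c ψ).opensRange = pullback.snd c t ⁻¹ᵁ ψ.1.opensRange :=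
  Opens.ext (show Set.range (baseChangeSnd c ψ).base =
      (pullback.snd c t).base ⁻¹' Set.range ψ.1.base by
    rw [← (isPullback_baseChangeSnd c ψ).isoPullback_hom_fst, Scheme.Hom.comp_base,
      TopCat.coe_comp, Set.range_comp, Set.range_eq_univ.2
        ((isPullback_baseChangeSnd c ψ).isoPullback.hom.surjective), Set.image_univ,
      Scheme.Pullback.range_fst])

variable (W : Realization Cv c ε)

theorem rigSection_comp_snd {T : Scheme.{u}} (t : T ⟶ Spec (CommRingCat.of k)) :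
    rigSection c t ε ≫ pullback.snd c t = 𝟙 T :=
  pullback.lift_snd _ _ _

include W in
/-- Classes agreeing on a cover of the base agree. -/
theorem nonempty_iso_of_agree {T : Scheme.{u}} {t : T ⟶ Spec (CommRingCat.of k)}
    (M M' : RigidifiedLineBundle c ε t) {ι : Type u} (U : ι → Scheme.{u}) (j : ∀ i, U i ⟶ T)
    [∀ i, IsOpenImmersion (j i)] (hj : ∀ x, ∃ i, x ∈ Set.range (j i).base)
    (h : ∀ i, Nonempty ((M.pullbackAlong ⟨j i, rfl⟩).L ≅ (M'.pullbackAlong ⟨j i, rfl⟩).L)) :
    Nonempty (M.L ≅ M'.L) := by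
  obtain ⟨θ, hθ⟩ := Sheaf.exists_isRig M.rigidified
  obtain ⟨θ', hθ'⟩ := Sheaf.exists_isRig M'.rigidified
  have hV : (⨆ i, (j i).opensRange) = ⊤ :=
    eq_top_iff.mpr fun x _ => Opens.mem_iSup.mpr (hj x)
  have φ : ∀ i, Nonempty
      (M.L.restrict (pullback.snd c t ⁻¹ᵁ (j i).opensRange).ι ≅
        M'.L.restrict (pullback.snd c t ⁻¹ᵁ (j i).opensRange).ι) := fun i => by
    let ψ : SchemeHomOver (j i ≫ t) t := ⟨j i, rfl⟩
    haveI : IsOpenImmersion ψ.1 := inferInstanceAs (IsOpenImmersion (j i))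
    haveI := isOpenImmersion_baseChangeSnd (c := c) ψ
    exact Sheaf.nonempty_restrict_iso_of_range (baseChangeSnd c ψ) _
      ((Scheme.Opens.opensRange_ι _).trans (opensRange_baseChangeSnd ψ).symm)
      ((Scheme.Modules.restrictFunctorIsoPullback _).app M.L ≪≫ (h i).some ≪≫
        ((Scheme.Modules.restrictFunctorIsoPullback _).app M'.L).symm)
  exact Sheaf.nonempty_iso_of_cover (rigid W t) (rigSection_comp_snd t) hV
    (Sheaf.hasFrames_of_isInvertible M.isInvertible) hθ hθ' fun i => (φ i).some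

include W in
/-- Compatible classes on an open cover of the base glue. -/
theorem exists_bundle_of_cover {T : Scheme.{u}} {t : T ⟶ Spec (CommRingCat.of k)}
    {ι : Type u} (U : ι → T.Opens) (hU : ⨆ i, U i = ⊤)
    (M : ∀ i, RigidifiedLineBundle c ε ((U i).ι ≫ t))
    (h : ∀ i l, Nonempty
      (((M i).pullbackAlong
          ⟨T.homOfLE inf_le_left, by rw [← Category.assoc, Scheme.homOfLE_ι]⟩ :
          RigidifiedLineBundle c ε ((U i ⊓ U l).ι ≫ t)).L ≅
        ((M l).pullbackAlong
          ⟨T.homOfLE inf_le_right, by rw [← Category.assoc, Scheme.homOfLE_ι]⟩ :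
          RigidifiedLineBundle c ε ((U i ⊓ U l).ι ≫ t)).L)) :
    ∃ N : RigidifiedLineBundle c ε t,
      ∀ i, Nonempty ((N.pullbackAlong ⟨(U i).ι, rfl⟩).L ≅ (M i).L) := by
  let ψ : ∀ V : T.Opens, SchemeHomOver (V.ι ≫ t) t := fun V => ⟨V.ι, rfl⟩
  haveI : ∀ V : T.Opens, IsOpenImmersion (baseChangeSnd c (ψ V)) := fun V =>
    haveI : IsOpenImmersion (ψ V).1 := inferInstanceAs (IsOpenImmersion V.ι)
    isOpenImmersion_baseChangeSnd (ψ V)
  have hr : ∀ V : T.Opens, (baseChangeSnd c (ψ V)).opensRange = pullback.snd c t ⁻¹ᵁ V := fun V => by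
    haveI : IsOpenImmersion (ψ V).1 := inferInstanceAs (IsOpenImmersion V.ι)
    rw [opensRange_baseChangeSnd (ψ V)]
    exact congrArg _ V.opensRange_ι
  let F : ι → (pullback c t).Modules := fun i =>
    (Scheme.Modules.pushforward (baseChangeSnd c (ψ (U i)))).obj (M i).L
  have hF : ∀ i, Sheaf.HasFramesOn (F i) (pullback.snd c t ⁻¹ᵁ U i) := fun i =>
    (Sheaf.hasFramesOn_pushforward _
      (Sheaf.hasFrames_of_isInvertible (M i).isInvertible)).mono (hr (U i)).ge
  have θ : ∀ i, Nonempty (Sheaf.LocRig (rigSection c t ε) (F i) (pullback.snd c t ⁻¹ᵁ U i)) :=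
    fun i => by
      obtain ⟨θ, hθ⟩ := Sheaf.exists_isRig (M i).rigidified
      refine Sheaf.nonempty_locRig_pushforward (j := (U i).ι) _
        (rigSection_baseChangeSnd c ε (ψ (U i))) (hr (U i)).ge (fun x hx => ?_) hθ
      rw [Scheme.Opens.opensRange_ι]
      have hx' : (rigSection c t ε ≫ pullback.snd c t).base x ∈ U i := hx
      rwa [rigSection_comp_snd] at hx'
  have key : ∀ (i : ι) (V : T.Opens) (hle : V ≤ U i)
      (σ : SchemeHomOver (V.ι ≫ t) ((U i).ι ≫ t)), σ.1 = T.homOfLE hle →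
      Nonempty ((F i).restrict (baseChangeSnd c (ψ V)) ≅ ((M i).pullbackAlong σ).L) := by
    intro i V hle σ hσ
    haveI : IsOpenImmersion σ.1 := hσ ▸ inferInstanceAs (IsOpenImmersion (T.homOfLE hle))
    haveI := isOpenImmersion_baseChangeSnd (c := c) σ
    have e : baseChangeSnd c σ ≫ baseChangeSnd c (ψ (U i)) = baseChangeSnd c (ψ V) := by
      rw [baseChangeSnd_comp]
      congr 1
      exact Subtype.ext ((congrArg (· ≫ (U i).ι) hσ).trans (T.homOfLE_ι hle))
    exact ⟨(Scheme.Modules.restrictFunctorCongr e.symm ≪≫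
        Scheme.Modules.restrictFunctorComp _ (baseChangeSnd c (ψ (U i)))).app (F i) ≪≫
      (Scheme.Modules.restrictFunctor (baseChangeSnd c σ)).mapIso
        ((Scheme.Modules.restrictFunctorAdjCounitIso (baseChangeSnd c (ψ (U i)))).app (M i).L) ≪≫
      (Scheme.Modules.restrictFunctorIsoPullback (baseChangeSnd c σ)).app (M i).L⟩
  have g : ∀ i l, Nonempty
      ((F i).restrict (pullback.snd c t ⁻¹ᵁ (U i ⊓ U l)).ι ≅
        (F l).restrict (pullback.snd c t ⁻¹ᵁ (U i ⊓ U l)).ι) := fun i l => by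
    obtain ⟨a⟩ := key i (U i ⊓ U l) inf_le_left
      ⟨T.homOfLE inf_le_left, by rw [← Category.assoc, Scheme.homOfLE_ι]⟩ rfl
    obtain ⟨b⟩ := key l (U i ⊓ U l) inf_le_right
      ⟨T.homOfLE inf_le_right, by rw [← Category.assoc, Scheme.homOfLE_ι]⟩ rfl
    obtain ⟨a'⟩ := h i l
    exact Sheaf.nonempty_restrict_iso_of_range _ _
      ((Scheme.Opens.opensRange_ι _).trans (hr _).symm) (a ≪≫ a' ≪≫ b.symm)
  obtain ⟨N, θN, hN, hθN, hiso⟩ := Sheaf.exists_glue_modules (rigid W t) (rigSection_comp_snd t)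
    hU F hF (fun i => (θ i).some) fun i l => (g i l).some
  refine ⟨⟨N, Sheaf.isInvertible_of_hasFrames hN, Sheaf.nonempty_iso_of_isRig hN θN hθN⟩,
    fun i => ?_⟩
  obtain ⟨φ⟩ := hiso i
  obtain ⟨a⟩ := Sheaf.nonempty_restrict_iso_of_range _ (baseChangeSnd c (ψ (U i)))
    ((hr (U i)).trans (Scheme.Opens.opensRange_ι _).symm) φ
  exact ⟨((Scheme.Modules.restrictFunctorIsoPullback _).app N).symm ≪≫ a ≪≫
    (Scheme.Modules.restrictFunctorAdjCounitIso (baseChangeSnd c (ψ (U i)))).app (M i).L⟩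

end FLTAgent.JacRep.Over
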