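import Fermat.Agent.JacRep.Sheaf.IsoGlue
import Fermat.Prelude.Def_AlgebraicGeometry_RelativePicardFunctor

/-!
# Rigidified classes form a small type

`small_rigidifiedClasses`: isomorphism classes of rigidified line bundles form a small type.
An invertible module is determined up to isomorphism by a trivialising cover indexed by the points
and its transition maps (`nonempty_iso_of_transitionCode`).
-/

set_option autoImplicit false

noncomputable section

open CategoryTheory CategoryTheory.Limits AlgebraicGeometry Opposite AlgebraicGeometry.RelPicard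
  NeronModelInfra

universe u v

namespace FLTAgent.JacRep.Glue

variable (X : Scheme.{u})

/-- The structure sheaf as a module. -/
abbrev oneModule : X.Modules := SheafOfModules.unit X.ringCatSheaf

/-- Trivialising opens and transition maps. -/
abbrev TransitionCode : Type u :=
  (X → X.Opens) × ((x y : X) → (W : X.Opens) → Γ(oneModule X, W) → Γ(oneModule X, W))

variable {X}

theorem exists_restrict_trivial {L : X.Modules} (hL : Scheme.Modules.IsInvertible L) :
    ∃ U : X → X.Opens, (∀ x, x ∈ U x) ∧ ∀ x, Nonempty
      ((Scheme.Modules.restrictFunctor (U x).ι).obj L ≅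
        (Scheme.Modules.restrictFunctor (U x).ι).obj (oneModule X)) := by
  choose U hU e using hL.exists_trivialization
  exact ⟨U, hU, fun x => ⟨(Scheme.Modules.restrictFunctorIsoPullback (U x).ι).app L ≪≫
    (e x).some ≪≫ (Scheme.Modules.restrictUnitIso (U x).ι).symm⟩⟩

/-- The transition maps of a trivialisation. -/
def transition {L : X.Modules} (U : X → X.Opens)
    (e : ∀ x, (Scheme.Modules.restrictFunctor (U x).ι).obj L ≅
      (Scheme.Modules.restrictFunctor (U x).ι).obj (oneModule X))
    (x y : X) (W : X.Opens) (a : Γ(oneModule X, W)) : Γ(oneModule X, W) :=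
  haveI := Classical.propDecidable (W ≤ U x ∧ W ≤ U y)
  if h : W ≤ U x ∧ W ≤ U y then
    locApp (U y) (e y).hom h.2 (locApp (U x) (e x).inv h.1 a)
  else a

/-- A chosen code of an invertible module. -/
def transitionCode {L : X.Modules} (hL : Scheme.Modules.IsInvertible L) : TransitionCode X :=
  ((exists_restrict_trivial hL).choose,
    transition _ fun x => ((exists_restrict_trivial hL).choose_spec.2 x).some)

theorem nonempty_iso_of_transition {L L' : X.Modules} (U : X → X.Opens) (hU : ∀ x, x ∈ U x)
    (e : ∀ x, (Scheme.Modules.restrictFunctor (U x).ι).obj L ≅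
      (Scheme.Modules.restrictFunctor (U x).ι).obj (oneModule X))
    (e' : ∀ x, (Scheme.Modules.restrictFunctor (U x).ι).obj L' ≅
      (Scheme.Modules.restrictFunctor (U x).ι).obj (oneModule X))
    (h : transition U e = transition U e') : Nonempty (L ≅ L') := by
  have hcov : ⨆ x, U x = ⊤ :=
    top_unique fun x _ => TopologicalSpace.Opens.mem_iSup.mpr ⟨x, hU x⟩
  obtain ⟨φ, -⟩ := exists_iso_of_locApp hcov (fun x => e x ≪≫ (e' x).symm) fun x y W hx hy => by
    ext a
    have hid : ∀ {A : X.Modules} (z : X) (hz : W ≤ U z)
        (f : (Scheme.Modules.restrictFunctor (U z).ι).obj A ≅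
          (Scheme.Modules.restrictFunctor (U z).ι).obj (oneModule X)),
        (∀ b, locApp (U z) f.inv hz (locApp (U z) f.hom hz b) = b) ∧
          ∀ b, locApp (U z) f.hom hz (locApp (U z) f.inv hz b) = b := fun z hz f => by
      constructor <;> intro b <;>
        simp only [← ConcreteCategory.comp_apply, ← locApp_comp, Iso.hom_inv_id,
          Iso.inv_hom_id, locApp_id] <;> rfl
    have ht := congrFun (congrFun (congrFun (congrFun h x) y) W) (locApp (U x) (e x).hom hx a)
    simp only [transition, dif_pos (And.intro hx hy), (hid x hx (e x)).1] at ht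
    simp only [Iso.trans_hom, Iso.symm_hom, locApp_comp, ConcreteCategory.comp_apply]
    rw [ht, (hid y hy (e' y)).1]
  exact ⟨φ⟩

theorem nonempty_iso_of_transitionCode {L L' : X.Modules} (hL : Scheme.Modules.IsInvertible L)
    (hL' : Scheme.Modules.IsInvertible L') (h : transitionCode hL = transitionCode hL') :
    Nonempty (L ≅ L') := by
  have key : ∀ (U U' : X → X.Opens)
      (e : ∀ x, (Scheme.Modules.restrictFunctor (U x).ι).obj L ≅
        (Scheme.Modules.restrictFunctor (U x).ι).obj (oneModule X))
      (e' : ∀ x, (Scheme.Modules.restrictFunctor (U' x).ι).obj L' ≅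
        (Scheme.Modules.restrictFunctor (U' x).ι).obj (oneModule X)),
      (∀ x, x ∈ U x) → U = U' → transition U e = transition U' e' → Nonempty (L ≅ L') := by
    rintro U U' e e' hU rfl ht
    exact nonempty_iso_of_transition U hU e e' ht
  exact key _ _ _ _ (exists_restrict_trivial hL).choose_spec.1 (congrArg Prod.fst h)
    (congrArg Prod.snd h)

/-- Isomorphism classes of rigidified invertible modules form a small type. -/
theorem small_rigidifiedClasses {R : Type u} [CommRing R] {C : Scheme.{u}}
    {c : C ⟶ Spec (CommRingCat.of R)} {ε : SchemeHomOver (𝟙 (Spec (CommRingCat.of R))) c}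
    {T : Scheme.{u}} (t : T ⟶ Spec (CommRingCat.of R)) :
    Small.{u} (RigidifiedLineBundle.Classes c ε t) := by
  refine small_of_injective (β := TransitionCode (pullback c t))
    (f := fun q : RigidifiedLineBundle.Classes c ε t => transitionCode (Quotient.out q).isInvertible)
    fun q q' h => ?_
  rw [← Quotient.out_eq q, ← Quotient.out_eq q']
  exact Quotient.sound (nonempty_iso_of_transitionCode _ _ h)

end FLTAgent.JacRep.Glue
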