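import Fermat.Agent.JacRep.Curve
import Mathlib.AlgebraicGeometry.Pullbacks

/-!
# The two charts of the relative curve over an affine base

For a `Realization` of a curve as a `Cover`, the base changes `chart₀ R W` and `chart₁ R W` of its
charts are open immersions of `Spec (Cv.B₀ R)` and `Spec (Cv.B₁ R)` in `C × Spec R`. They cover it
(`range_chart_union`), meet in the spectrum of `Cv.B R` (`isPullback_charts`), the base point is
the section `rigSection` (`rigSection_eq`), and they commute with change of `R`.
-/

set_option autoImplicit false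
set_option linter.style.haveILetI false

noncomputable section

open CategoryTheory CategoryTheory.Limits AlgebraicGeometry AlgebraicGeometry.RelPicard
  NeronModelInfra
open scoped TensorProduct

universe u

namespace FLTAgent.JacRep.Over

variable {k : Type u} [Field k] {C : Scheme.{u}} (c : C ⟶ Spec (CommRingCat.of k))
  (R : Type u) [CommRing R] [Algebra k R] {A : Type u} [CommRing A] [Algebra k A]

variable (k) in
/-- The projection of `R ⊗ A` to `A`. -/
abbrev specRight (A : Type u) [CommRing A] [Algebra k A] :
    Spec (CommRingCat.of (R ⊗[k] A)) ⟶ Spec (CommRingCat.of A) :=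
  Spec.map (CommRingCat.ofHom
    (Algebra.TensorProduct.includeRight : A →ₐ[k] R ⊗[k] A).toRingHom)

variable (k) in
/-- The projection of `R ⊗ A` to `R`. -/
abbrev specLeft (A : Type u) [CommRing A] [Algebra k A] :
    Spec (CommRingCat.of (R ⊗[k] A)) ⟶ Spec (CommRingCat.of R) :=
  Spec.map (CommRingCat.ofHom (Algebra.TensorProduct.includeLeftRingHom : R →+* R ⊗[k] A))

variable (k) in
theorem isPullback_prod (A : Type u) [CommRing A] [Algebra k A] :
    IsPullback (specRight k R A) (specLeft k R A) (specStr k A) (specStr k R) := by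
  refine IsPullback.of_iso_pullback ⟨?_⟩
    ((pullbackSpecIso k R A).symm ≪≫ pullbackSymmetry _ _) ?_ ?_
  · rw [← Spec.map_comp, ← Spec.map_comp, ← CommRingCat.ofHom_comp, ← CommRingCat.ofHom_comp]
    congr 2
    ext r
    simp
  · rw [Iso.trans_hom, Category.assoc, pullbackSymmetry_hom_comp_fst, Iso.symm_hom,
      pullbackSpecIso_inv_snd]
    rfl
  · rw [Iso.trans_hom, Category.assoc, pullbackSymmetry_hom_comp_snd, Iso.symm_hom,
      pullbackSpecIso_inv_fst]

/-- Base change of a map of affine schemes over the field. -/
theorem isPullback_map {A' : Type u} [CommRing A'] [Algebra k A'] (f : A →ₐ[k] A') :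
    IsPullback (Spec.map (CommRingCat.ofHom
        (Algebra.TensorProduct.map (AlgHom.id k R) f).toRingHom)) (specRight k R A')
      (specRight k R A) (Spec.map (CommRingCat.ofHom f.toRingHom)) := by
  have h₁ : Spec.map (CommRingCat.ofHom (Algebra.TensorProduct.map (AlgHom.id k R) f).toRingHom) ≫
      specLeft k R A = specLeft k R A' := by
    rw [← Spec.map_comp, ← CommRingCat.ofHom_comp]
    congr 2
    ext r
    simp
  have h₂ : Spec.map (CommRingCat.ofHom f.toRingHom) ≫ specStr k A = specStr k A' :=
    (specOver f).2
  refine IsPullback.of_right ?_ ?_ (isPullback_prod k R A).flip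
  · rw [h₁, h₂]; exact (isPullback_prod k R A').flip
  · rw [← Spec.map_comp, ← Spec.map_comp, ← CommRingCat.ofHom_comp, ← CommRingCat.ofHom_comp]
    congr 2

variable {c} (j : Spec (CommRingCat.of A) ⟶ C) (hj : j ≫ c = specStr k A)

/-- The chart over `R` of a chart of the curve. -/
def chartOver : Spec (CommRingCat.of (R ⊗[k] A)) ⟶ pullback c (specStr k R) :=
  pullback.lift (specRight k R A ≫ j) (specLeft k R A)
    (by rw [Category.assoc, hj, (isPullback_prod k R A).w])

@[reassoc]
theorem chartOver_fst :
    chartOver R j hj ≫ pullback.fst c (specStr k R) = specRight k R A ≫ j :=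
  pullback.lift_fst _ _ _

@[reassoc]
theorem chartOver_snd : chartOver R j hj ≫ pullback.snd c (specStr k R) = specLeft k R A :=
  pullback.lift_snd _ _ _

theorem isPullback_chartOver :
    IsPullback (chartOver R j hj) (specRight k R A) (pullback.fst c (specStr k R)) j := by
  refine IsPullback.of_right ?_ (chartOver_fst R j hj) (IsPullback.of_hasPullback c _).flip
  rw [chartOver_snd, hj]
  exact (isPullback_prod k R A).flip

theorem isOpenImmersion_chartOver [IsOpenImmersion j] : IsOpenImmersion (chartOver R j hj) :=
  MorphismProperty.of_isPullback (P := @IsOpenImmersion) (isPullback_chartOver R j hj).flip ‹_›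

theorem range_chartOver :
    Set.range (chartOver R j hj).base =
      (pullback.fst c (specStr k R)).base ⁻¹' Set.range j.base := by
  rw [← (isPullback_chartOver R j hj).isoPullback_hom_fst, Scheme.Hom.comp_base, TopCat.coe_comp,
    Set.range_comp, Set.range_eq_univ.2 ((isPullback_chartOver R j hj).isoPullback.hom.surjective), Set.image_univ,
    Scheme.Pullback.range_fst]

theorem chartOver_baseChange {S : Type u} [CommRing S] [Algebra k S] (φ : R →ₐ[k] S) :
    chartOver S j hj ≫ baseChangeSnd c (specOver φ) =
      Spec.map (CommRingCat.ofHom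
        (Algebra.TensorProduct.map φ (AlgHom.id k A)).toRingHom) ≫ chartOver R j hj := by
  apply pullback.hom_ext
  · simp only [baseChangeSnd, pullback.map, Category.assoc, pullback.lift_fst, Category.comp_id,
      chartOver_fst]
    rw [← Category.assoc, ← Spec.map_comp, ← CommRingCat.ofHom_comp]
    congr 1
    refine congrArg (fun f => Spec.map (CommRingCat.ofHom f)) ?_
    ext a
    simp
  · simp only [baseChangeSnd, pullback.map, Category.assoc, pullback.lift_snd, chartOver_snd]
    rw [chartOver_snd_assoc]
    show specLeft k S A ≫ Spec.map _ = _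
    rw [← Spec.map_comp, ← Spec.map_comp, ← CommRingCat.ofHom_comp, ← CommRingCat.ofHom_comp]
    congr 2

section Realization

variable {Cv : Cover k} {ε : SchemeHomOver (𝟙 (Spec (CommRingCat.of k))) c}
  (W : Realization Cv c ε)

/-- The chart containing the base point, over `R`. -/
def chart₀ : Spec (CommRingCat.of (Cv.B₀ R)) ⟶ pullback c (specStr k R) :=
  chartOver R W.j₀ W.over₀

/-- The chart at infinity, over `R`. -/
def chart₁ : Spec (CommRingCat.of (Cv.B₁ R)) ⟶ pullback c (specStr k R) :=
  chartOver R W.j₁ W.over₁

instance isOpenImmersion_chart₀ : IsOpenImmersion (chart₀ R W) :=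
  haveI := W.isOpenImmersion₀
  isOpenImmersion_chartOver R W.j₀ W.over₀

instance isOpenImmersion_chart₁ : IsOpenImmersion (chart₁ R W) :=
  haveI := W.isOpenImmersion₁
  isOpenImmersion_chartOver R W.j₁ W.over₁

theorem chart₀_fst : chart₀ R W ≫ pullback.fst c (specStr k R) = specRight k R Cv.A₀ ≫ W.j₀ :=
  chartOver_fst ..

theorem chart₁_fst : chart₁ R W ≫ pullback.fst c (specStr k R) = specRight k R Cv.A₁ ≫ W.j₁ :=
  chartOver_fst ..

theorem chart₀_snd : chart₀ R W ≫ pullback.snd c (specStr k R) = specLeft k R Cv.A₀ :=
  chartOver_snd ..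

theorem chart₁_snd : chart₁ R W ≫ pullback.snd c (specStr k R) = specLeft k R Cv.A₁ :=
  chartOver_snd ..

/-- The two charts cover the relative curve. -/
theorem range_chart_union :
    Set.range (chart₀ R W).base ∪ Set.range (chart₁ R W).base = Set.univ := by
  rw [chart₀, chart₁, range_chartOver, range_chartOver, ← Set.preimage_union, W.range_union,
    Set.preimage_univ]

/-- The two charts meet in the spectrum of the overlap ring. -/
theorem isPullback_charts :
    IsPullback (Spec.map (CommRingCat.ofHom (Cv.resB₀ R)))
      (Spec.map (CommRingCat.ofHom (Cv.resB₁ R))) (chart₀ R W) (chart₁ R W) := by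
  have hw : Spec.map (CommRingCat.ofHom (Cv.resB₀ R)) ≫ chart₀ R W =
      Spec.map (CommRingCat.ofHom (Cv.resB₁ R)) ≫ chart₁ R W := by
    apply pullback.hom_ext
    · rw [Category.assoc, Category.assoc, chart₀_fst, chart₁_fst, ← Category.assoc,
        ← Category.assoc]
      refine (congrArg (· ≫ W.j₀) (isPullback_map R Cv.res₀).w).trans (Eq.trans ?_
        (congrArg (· ≫ W.j₁) (isPullback_map R Cv.res₁).w).symm)
      rw [Category.assoc, Category.assoc, W.isPullback.w]
    · rw [Category.assoc, Category.assoc, chart₀_snd, chart₁_snd, ← Spec.map_comp, ← Spec.map_comp,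
        ← CommRingCat.ofHom_comp, ← CommRingCat.ofHom_comp]
      congr 2
      ext r
      simp [Cover.resB₀, Cover.resB₁]
  have outer := (isPullback_map R Cv.res₀).paste_vert W.isPullback
  rw [(isPullback_map R Cv.res₁).w.symm, ← chart₀_fst R W] at outer
  exact IsPullback.of_bot outer hw (isPullback_chartOver R W.j₁ W.over₁)

/-- The rigidifying section is the base point of the first chart. -/
theorem rigSection_eq :
    rigSection c (specStr k R) ε = Spec.map (CommRingCat.ofHom (Cv.baseB R)) ≫ chart₀ R W := by
  apply pullback.hom_ext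
  · rw [rigSection, pullback.lift_fst, Category.assoc, chart₀_fst, ← W.base_eq,
      ← Category.assoc, ← Category.assoc, ← Spec.map_comp, ← Spec.map_comp,
      ← CommRingCat.ofHom_comp, ← CommRingCat.ofHom_comp]
    congr 3
    ext a
    simp [Cover.baseB, Algebra.smul_def]
  · rw [rigSection, pullback.lift_snd, Category.assoc, chart₀_snd, ← Spec.map_comp,
      ← CommRingCat.ofHom_comp, ← Spec.map_id, ← CommRingCat.ofHom_id]
    congr 2
    ext r
    simp [Cover.baseB]

theorem chart₀_baseChange {S : Type u} [CommRing S] [Algebra k S] (φ : R →ₐ[k] S) :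
    chart₀ S W ≫ baseChangeSnd c (specOver φ) =
      Spec.map (CommRingCat.ofHom (Cv.mapB₀ φ)) ≫ chart₀ R W :=
  chartOver_baseChange R W.j₀ W.over₀ φ

theorem chart₁_baseChange {S : Type u} [CommRing S] [Algebra k S] (φ : R →ₐ[k] S) :
    chart₁ S W ≫ baseChangeSnd c (specOver φ) =
      Spec.map (CommRingCat.ofHom (Cv.mapB₁ φ)) ≫ chart₁ R W :=
  chartOver_baseChange R W.j₁ W.over₁ φ

end Realization

end FLTAgent.JacRep.Over
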