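import Fermat.Prelude.Def_AlgebraicGeometry_RelativePicardFunctor

/-!
# Local frames of a module

`IsFrame M s`: the section `s` generates `M` freely on every smaller open; `HasFrames M`: such
sections exist near every point. `hasFrames_of_isInvertible` gives them for an invertible module
from a trivialisation (`isFrame_of_iso`). Notation for restriction of sections and of functions
(`res`, `resF`) is fixed here.
-/

set_option autoImplicit false
set_option linter.style.haveILetI false

noncomputable section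

open CategoryTheory CategoryTheory.Limits AlgebraicGeometry TopologicalSpace Opposite

universe u

namespace FLTAgent.JacRep.Sheaf

variable {X T : Scheme.{u}}

/-- The structure sheaf as a module. -/
abbrev unitMod (X : Scheme.{u}) : X.Modules := SheafOfModules.unit X.ringCatSheaf

/-- Restriction of a section. -/
abbrev res (M : X.Modules) {U V : X.Opens} (h : V ≤ U) (s : Γ(M, U)) : Γ(M, V) :=
  M.presheaf.map (homOfLE h).op s

/-- Restriction of a function. -/
abbrev resF {U V : X.Opens} (h : V ≤ U) (r : Γ(X, U)) : Γ(X, V) :=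
  X.presheaf.map (homOfLE h).op r

theorem res_res (M : X.Modules) {U V W : X.Opens} (h : V ≤ U) (h' : W ≤ V) (s : Γ(M, U)) :
    res M h' (res M h s) = res M (h'.trans h) s :=
  (ConcreteCategory.congr_hom (M.presheaf.map_comp (homOfLE h).op (homOfLE h').op) s).symm

theorem res_self (M : X.Modules) {U : X.Opens} (h : U ≤ U) (s : Γ(M, U)) : res M h s = s :=
  ConcreteCategory.congr_hom (M.presheaf.map_id (op U)) s

theorem res_smul (M : X.Modules) {U V : X.Opens} (h : V ≤ U) (r : Γ(X, U)) (s : Γ(M, U)) :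
    res M h (r • s) = resF h r • res M h s :=
  Scheme.Modules.map_smul M (homOfLE h) r s

theorem resF_resF {U V W : X.Opens} (h : V ≤ U) (h' : W ≤ V) (r : Γ(X, U)) :
    resF h' (resF h r) = resF (h'.trans h) r :=
  (ConcreteCategory.congr_hom (X.presheaf.map_comp (homOfLE h).op (homOfLE h').op) r).symm

theorem resF_self {U : X.Opens} (h : U ≤ U) (r : Γ(X, U)) : resF h r = r :=
  ConcreteCategory.congr_hom (X.presheaf.map_id (op U)) r

theorem app_res {M N : X.Modules} (φ : M ⟶ N) {U V : X.Opens} (h : V ≤ U) (s : Γ(M, U)) :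
    φ.app V (res M h s) = res N h (φ.app U s) :=
  ConcreteCategory.congr_hom (φ.mapPresheaf.naturality (homOfLE h).op) s

/-- A section generating the module freely on every smaller open. -/
def IsFrame (M : X.Modules) {U : X.Opens} (s : Γ(M, U)) : Prop :=
  ∀ (V : X.Opens) (h : V ≤ U), Function.Bijective fun r : Γ(X, V) => r • res M h s

theorem IsFrame.res {M : X.Modules} {U V : X.Opens} {s : Γ(M, U)} (hs : IsFrame M s) (h : V ≤ U) :
    IsFrame M (res M h s) := fun W h' => by
  rw [res_res]
  exact hs W (h'.trans h)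

theorem IsFrame.exists_eq_smul {M : X.Modules} {U V : X.Opens} {s : Γ(M, U)} (hs : IsFrame M s)
    (h : V ≤ U) (t : Γ(M, V)) : ∃ r : Γ(X, V), t = r • Sheaf.res M h s := by
  obtain ⟨r, hr⟩ := (hs V h).2 t
  exact ⟨r, hr.symm⟩

/-- Every point has a neighbourhood with a frame. -/
def HasFrames (M : X.Modules) : Prop :=
  ∀ x : X, ∃ (U : X.Opens) (s : Γ(M, U)), x ∈ U ∧ IsFrame M s

theorem isFrame_of_iso {M : X.Modules} (U : X.Opens)
    (e : M.restrict U.ι ≅ unitMod U.toScheme) :
    ∃ s : Γ(M, U.ι ''ᵁ (⊤ : U.toScheme.Opens)), IsFrame M s := by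
  let one : Γ(unitMod U.toScheme, ⊤) :=
    (1 : Γ(U.toScheme, ⊤))
  let s₀ : Γ(M.restrict U.ι, ⊤) := e.inv.app ⊤ one
  refine ⟨(M.restrictAppIso U.ι ⊤).hom s₀, fun V h => ?_⟩
  obtain ⟨W, rfl⟩ : ∃ W : U.toScheme.Opens, U.ι ''ᵁ W = V := ⟨U.ι ⁻¹ᵁ V, by
    rw [Scheme.Hom.image_preimage_eq_opensRange_inf, inf_eq_right]
    exact h.trans (U.ι.image_le_opensRange ⊤)⟩
  -- the trivialisation on `W`
  have key : ∀ r : Γ(U.toScheme, W),
      (U.ι.appIso W).inv r • res M h ((M.restrictAppIso U.ι ⊤).hom s₀) =
        (M.restrictAppIso U.ι W).hom (e.inv.app W r) := by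
    intro r
    have h1 : e.inv.app W r = r • res (M.restrict U.ι) (le_top : W ≤ ⊤) s₀ := by
      have h2 := app_res e.inv (le_top : W ≤ ⊤) one
      have h3 : (res (unitMod U.toScheme) (le_top : W ≤ ⊤) one : Γ(unitMod U.toScheme, W)) =
          (1 : Γ(U.toScheme, W)) := map_one (U.toScheme.presheaf.map (homOfLE le_top).op).hom
      refine Eq.trans ?_ (congrArg (r • ·) h2)
      rw [← Scheme.Modules.Hom.app_smul, h3]
      congr 1
      exact (mul_one r).symm
    rw [h1]
    rfl
  have hb : Function.Bijective fun r : Γ(U.toScheme, W) =>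
      (M.restrictAppIso U.ι W).hom (e.inv.app W r) :=
    (ConcreteCategory.bijective_of_isIso (M.restrictAppIso U.ι W).hom).comp
      (ConcreteCategory.bijective_of_isIso (Scheme.Modules.Hom.app e.inv W))
  have hbij : Function.Bijective (U.ι.appIso W).inv :=
    ConcreteCategory.bijective_of_isIso _
  rw [← funext key] at hb
  exact (Function.Bijective.of_comp_iff _ hbij).mp hb

/-- Invertible modules have frames. -/
theorem hasFrames_of_isInvertible {M : X.Modules} (hM : Scheme.Modules.IsInvertible M) :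
    HasFrames M := fun x => by
  obtain ⟨U, hx, ⟨e⟩⟩ := hM.exists_trivialization x
  obtain ⟨s, hs⟩ := isFrame_of_iso U ((Scheme.Modules.restrictFunctorIsoPullback U.ι).app M ≪≫ e)
  exact ⟨_, s, ⟨⟨x, hx⟩, trivial, rfl⟩, hs⟩

end FLTAgent.JacRep.Sheaf
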