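import Fermat.Agent.JacRep.Sheaf.Rig
import Fermat.Agent.JacRep.Sheaf.IsoGlue

/-!
# Isomorphisms normalised along a section

A `LocRig e M Ω` is a rigidification along `e : T ⟶ X` over an open `Ω`. If `p : X ⟶ T` is
`Rigid` along its section `e`, an isomorphism over `p ⁻¹ᵁ V` respecting rigidifications is unique
(`eq_of_isNormalised`), and one exists as soon as there is any isomorphism
(`exists_isNormalised`): multiply by the unit of the base comparing the two rigidifications.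
-/

set_option autoImplicit false
set_option linter.style.haveILetI false
set_option maxHeartbeats 800000

noncomputable section

open CategoryTheory CategoryTheory.Limits AlgebraicGeometry TopologicalSpace Opposite

universe u

namespace FLTAgent.JacRep.Sheaf

open Glue (locApp)

variable {X T : Scheme.{u}} {M N : X.Modules}

/-- Functions on the preimage of an open are determined along the section. -/
def Rigid (p : X ⟶ T) (e : T ⟶ X) : Prop :=
  ∀ (V : T.Opens) (a : Γ(X, p ⁻¹ᵁ V)), e.app (p ⁻¹ᵁ V) a = 1 → a = 1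

theorem locApp_res {Ω : X.Opens}
    (φ : M.restrict Ω.ι ⟶ N.restrict Ω.ι) {U W : X.Opens} (hU : U ≤ Ω) (h : W ≤ U) (s : Γ(M, U)) :
    locApp Ω φ (h.trans hU) (res M h s) = res N h (locApp Ω φ hU s) :=
  ConcreteCategory.congr_hom (Glue.locApp_map φ h hU) s

theorem locApp_inv_apply {Ω : X.Opens} (φ : M.restrict Ω.ι ≅ N.restrict Ω.ι) {W : X.Opens}
    (h : W ≤ Ω) (s : Γ(M, W)) : locApp Ω φ.inv h (locApp Ω φ.hom h s) = s := by
  have h1 := Glue.locApp_comp φ.hom φ.inv h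
  rw [φ.hom_inv_id, Glue.locApp_id] at h1
  exact (ConcreteCategory.congr_hom h1 s).symm

theorem hom_ext_locApp {Ω : X.Opens} (a b : M.restrict Ω.ι ⟶ N.restrict Ω.ι)
    (h : ∀ {W : X.Opens} (hW : W ≤ Ω) (s : Γ(M, W)), locApp Ω a hW s = locApp Ω b hW s) :
    a = b := by
  refine Scheme.Modules.hom_ext _ _ fun Q => ConcreteCategory.hom_ext _ _ ?_
  intro (s : Γ(M, Ω.ι ''ᵁ Q))
  have h1 := h ((Ω.ι.image_le_opensRange Q).trans Ω.opensRange_ι.le) s
  rw [Glue.locApp_eq a _ Q rfl, Glue.locApp_eq b _ Q rfl] at h1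
  simp only [eqToHom_refl, op_id, CategoryTheory.Functor.map_id, Category.id_comp,
    Category.comp_id] at h1
  exact h1

theorem bijective_locApp {Ω : X.Opens} (φ : M.restrict Ω.ι ≅ N.restrict Ω.ι) {W : X.Opens}
    (h : W ≤ Ω) : Function.Bijective (locApp Ω φ.hom h) :=
  Function.bijective_iff_has_inverse.mpr
    ⟨locApp Ω φ.inv h, locApp_inv_apply φ h, locApp_inv_apply φ.symm h⟩

theorem IsFrame.locApp {Ω : X.Opens} (φ : M.restrict Ω.ι ≅ N.restrict Ω.ι) {U : X.Opens}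
    (hU : U ≤ Ω) {s : Γ(M, U)} (hs : IsFrame M s) :
    IsFrame N (Glue.locApp Ω φ.hom hU s) := fun W h => by
  have := (bijective_locApp φ (h.trans hU)).comp (hs W h)
  convert this using 1
  funext r
  show _ = Glue.locApp Ω φ.hom _ (r • Sheaf.res M h s)
  rw [Glue.locApp_smul, locApp_res φ.hom hU h]

/-- Frames near every point of an open, inside it. -/
def HasFramesOn (M : X.Modules) (Ω : X.Opens) : Prop :=
  ∀ y ∈ Ω, ∃ (U : X.Opens) (s : Γ(M, U)), y ∈ U ∧ U ≤ Ω ∧ IsFrame M s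

theorem HasFrames.on (hM : HasFrames M) (Ω : X.Opens) : HasFramesOn M Ω := fun y hy => by
  obtain ⟨U, s, hyU, hs⟩ := hM y
  exact ⟨U ⊓ Ω, res M inf_le_left s, ⟨hyU, hy⟩, inf_le_right, hs.res _⟩

theorem HasFramesOn.mono {Ω Ω' : X.Opens} (hM : HasFramesOn M Ω) (h : Ω' ≤ Ω) :
    HasFramesOn M Ω' := fun y hy => by
  obtain ⟨U, s, hyU, -, hs⟩ := hM y (h hy)
  exact ⟨U ⊓ Ω', res M inf_le_left s, ⟨hyU, hy⟩, inf_le_right, hs.res _⟩

/-- A rigidification over an open. -/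
structure LocRig (e : T ⟶ X) (M : X.Modules) (Ω : X.Opens) where
  val : ∀ {W : X.Opens}, W ≤ Ω → Γ(M, W) → Γ(T, e ⁻¹ᵁ W)
  val_add : ∀ {W : X.Opens} (h : W ≤ Ω) (s s' : Γ(M, W)), val h (s + s') = val h s + val h s'
  val_smul : ∀ {W : X.Opens} (h : W ≤ Ω) (r : Γ(X, W)) (s : Γ(M, W)),
    val h (r • s) = e.app W r * val h s
  val_res : ∀ {W V : X.Opens} (h : W ≤ Ω) (h' : V ≤ W) (s : Γ(M, W)),
    val (h'.trans h) (res M h' s) = resF (e.preimage_mono h') (val h s)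
  isUnit : ∀ {U : X.Opens} (h : U ≤ Ω) {s : Γ(M, U)}, IsFrame M s → IsUnit (val h s)

variable {e : T ⟶ X}

/-- A rigidification of a smaller open. -/
def LocRig.mono {Ω Ω' : X.Opens} (θ : LocRig e M Ω) (h : Ω' ≤ Ω) : LocRig e M Ω' where
  val hW := θ.val (hW.trans h)
  val_add _ := θ.val_add _
  val_smul _ := θ.val_smul _
  val_res _ := θ.val_res _
  isUnit _ _ hs := θ.isUnit _ hs

/-- A rigidification gives one over every open. -/
def IsRig.loc {θ : M ⟶ rigTarget e} (hθ : IsRig θ) (Ω : X.Opens) : LocRig e M Ω where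
  val _ s := rigVal θ s
  val_add {W} _ s s' := map_add (θ.app W).hom s s'
  val_smul _ := rigVal_smul θ
  val_res _ h' s := rigVal_res θ h' s
  isUnit _ _ hs := hθ.isUnit hs

/-- `φ` respects the rigidifications. -/
def IsNormalised {Ω : X.Opens} (θ : LocRig e M Ω) (θ' : LocRig e N Ω)
    (φ : M.restrict Ω.ι ⟶ N.restrict Ω.ι) : Prop :=
  ∀ (W : X.Opens) (h : W ≤ Ω) (s : Γ(M, W)), θ'.val h (locApp Ω φ h s) = θ.val h s

theorem exists_frames {Ω : X.Opens} (hM : HasFramesOn M Ω) :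
    ∃ (U : X → X.Opens) (s : ∀ y, Γ(M, U y)), (∀ y, U y ≤ Ω) ∧ (∀ y, y ∈ Ω → y ∈ U y) ∧
      ∀ y, IsFrame M (s y) := by
  classical
  have h : ∀ y : X, ∃ (U : X.Opens) (s : Γ(M, U)), U ≤ Ω ∧ (y ∈ Ω → y ∈ U) ∧ IsFrame M s := by
    intro y
    by_cases hy : y ∈ Ω
    · obtain ⟨U, s, hyU, hU, hs⟩ := hM y hy
      exact ⟨U, s, hU, fun _ => hyU, hs⟩
    · refine ⟨⊥, 0, bot_le, fun h => absurd h hy, fun V hV => ?_⟩
      obtain rfl : V = ⊥ := le_bot_iff.mp hV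
      haveI : Subsingleton Γ(M, ⊥) :=
        ⟨fun a b => TopCat.Sheaf.eq_of_locally_eq' ⟨M.presheaf, M.isSheaf⟩
          (fun _ : PEmpty.{u+1} => (⊥ : X.Opens)) ⊥ (fun i => i.elim) bot_le a b (fun i => i.elim)⟩
      exact ⟨fun a b _ => Subsingleton.elim a b, fun t => ⟨0, Subsingleton.elim _ _⟩⟩
  choose U s hU hyU hs using h
  exact ⟨U, s, hU, hyU, hs⟩

/-- **Uniqueness.** -/
theorem eq_of_isNormalised {p : X ⟶ T} (hp : Rigid p e) {V : T.Opens}
    (hM : HasFramesOn M (p ⁻¹ᵁ V)) {θ : LocRig e M (p ⁻¹ᵁ V)} {θ' : LocRig e N (p ⁻¹ᵁ V)}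
    (φ ψ : M.restrict (p ⁻¹ᵁ V).ι ≅ N.restrict (p ⁻¹ᵁ V).ι)
    (hφ : IsNormalised θ θ' φ.hom) (hψ : IsNormalised θ θ' ψ.hom) {W : X.Opens}
    (hW : W ≤ p ⁻¹ᵁ V) : locApp (p ⁻¹ᵁ V) φ.hom hW = locApp (p ⁻¹ᵁ V) ψ.hom hW := by
  obtain ⟨U, s, hUΩ, hyU, hs⟩ := exists_frames hM
  choose r hr using fun y => ((hs y).locApp ψ (hUΩ y)).exists_eq_smul le_rfl
    (locApp (p ⁻¹ᵁ V) φ.hom (hUΩ y) (s y))
  simp only [res_self] at hr
  have hcompat : TopCat.Presheaf.IsCompatible X.presheaf U r := by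
    intro y z
    have hle : U y ⊓ U z ≤ U y := inf_le_left
    have hle' : U y ⊓ U z ≤ U z := inf_le_right
    obtain ⟨c, hc⟩ := (hs y).exists_eq_smul hle (res M hle' (s z))
    have h1 : resF hle' (r z) • res N hle' (locApp (p ⁻¹ᵁ V) ψ.hom (hUΩ z) (s z)) =
        locApp (p ⁻¹ᵁ V) φ.hom (hle'.trans (hUΩ z)) (res M hle' (s z)) := by
      rw [← res_smul, ← hr, locApp_res]
    have h2 : resF hle (r y) • res N hle' (locApp (p ⁻¹ᵁ V) ψ.hom (hUΩ z) (s z)) =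
        locApp (p ⁻¹ᵁ V) φ.hom (hle'.trans (hUΩ z)) (res M hle' (s z)) := by
      rw [← locApp_res ψ.hom (hUΩ z) hle', hc, Glue.locApp_smul, Glue.locApp_smul, smul_comm,
        locApp_res ψ.hom (hUΩ y) hle, ← res_smul, ← hr, locApp_res]
    exact (((hs z).locApp ψ (hUΩ z)) _ hle').1 (h2.trans h1.symm)
  obtain ⟨a, ha, -⟩ := TopCat.Sheaf.existsUnique_gluing' X.sheaf U (p ⁻¹ᵁ V)
    (fun y => homOfLE (hUΩ y)) (fun y hy => Opens.mem_iSup.mpr ⟨y, hyU y hy⟩) r hcompat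
  have ha' : ∀ y, resF (hUΩ y) a = r y := ha
  have ha1 : a = 1 := by
    refine hp V a (TopCat.Sheaf.eq_of_locally_eq' T.sheaf (fun y => e ⁻¹ᵁ U y) (e ⁻¹ᵁ (p ⁻¹ᵁ V))
      (fun y => homOfLE (e.preimage_mono (hUΩ y)))
      (fun x hx => Opens.mem_iSup.mpr ⟨e.base x, hyU _ hx⟩) _ _ fun y => ?_)
    show resF (e.preimage_mono (hUΩ y)) (e.app (p ⁻¹ᵁ V) a) = T.presheaf.map _ 1
    rw [map_one]
    have hnat : resF (e.preimage_mono (hUΩ y)) (e.app (p ⁻¹ᵁ V) a) = e.app (U y) (resF (hUΩ y) a) :=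
      (ConcreteCategory.congr_hom (e.naturality (homOfLE (hUΩ y)).op) a).symm
    rw [hnat, ha' y]
    have h1 := congrArg (θ'.val (hUΩ y)) (hr y)
    rw [θ'.val_smul, hφ, hψ] at h1
    exact (θ.isUnit (hUΩ y) (hs y)).mul_eq_right.mp h1.symm
  refine ConcreteCategory.hom_ext _ _ fun t => ?_
  refine TopCat.Sheaf.eq_of_locally_eq' ⟨N.presheaf, N.isSheaf⟩ (fun y => U y ⊓ W) W
    (fun y => homOfLE inf_le_right) (fun x hx => Opens.mem_iSup.mpr ⟨x, hyU x (hW hx), hx⟩) _ _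
    fun y => ?_
  show res N inf_le_right _ = res N inf_le_right _
  rw [← locApp_res, ← locApp_res]
  obtain ⟨c, hc⟩ := (hs y).exists_eq_smul (inf_le_left : U y ⊓ W ≤ U y) (res M inf_le_right t)
  rw [hc, Glue.locApp_smul, Glue.locApp_smul, locApp_res φ.hom (hUΩ y),
    locApp_res ψ.hom (hUΩ y), hr y]
  have hr1 : r y = 1 := (ha' y).symm.trans ((congrArg _ ha1).trans (map_one _))
  rw [hr1, one_smul]

theorem image_le (Ω : X.Opens) (Q : Ω.toScheme.Opens) : Ω.ι ''ᵁ Q ≤ Ω :=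
  (Ω.ι.image_le_opensRange Q).trans Ω.opensRange_ι.le

/-- Multiplication by a function on the sections over a smaller open. -/
def mulRes (N : X.Modules) {Ω : X.Opens} (c : Γ(X, Ω)) {W : X.Opens} (h : W ≤ Ω) :
    Γ(N, W) ⟶ Γ(N, W) :=
  AddCommGrpCat.ofHom (DistribSMul.toAddMonoidHom Γ(N, W) (resF h c))

theorem mulRes_apply (N : X.Modules) {Ω : X.Opens} (c : Γ(X, Ω)) {W : X.Opens} (h : W ≤ Ω)
    (s : Γ(N, W)) : mulRes N c h s = resF h c • s :=
  rfl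

theorem mulRes_res (N : X.Modules) {Ω : X.Opens} (c : Γ(X, Ω)) {W W' : X.Opens} (h : W ≤ Ω)
    (h' : W' ≤ W) (s : Γ(N, W)) :
    mulRes N c (h'.trans h) (res N h' s) = res N h' (mulRes N c h s) := by
  rw [mulRes_apply, mulRes_apply, res_smul, resF_resF]

theorem mulRes_smul (N : X.Modules) {Ω : X.Opens} (c : Γ(X, Ω)) {W : X.Opens} (h : W ≤ Ω)
    (r : Γ(X, W)) (s : Γ(N, W)) : mulRes N c h (r • s) = r • mulRes N c h s := by
  rw [mulRes_apply, mulRes_apply, smul_comm]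

/-- Multiplication by a function on an open. -/
def scalarEnd (N : X.Modules) {Ω : X.Opens} (c : Γ(X, Ω)) :
    N.restrict Ω.ι ⟶ N.restrict Ω.ι :=
  (Scheme.Modules.fullyFaithfulToPresheafOfModules).preimage
    (PresheafOfModules.homMk
      { app := fun Q => mulRes N c (image_le Ω Q.unop)
        naturality := fun Q Q' g => by
          ext y
          exact mulRes_res N c (image_le Ω Q.unop) (Ω.ι.image_mono (leOfHom g.unop)) y }
      fun Q r y => mulRes_smul N c (image_le Ω Q.unop) ((Ω.ι.appIso Q.unop).inv r) y)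

theorem locApp_scalarEnd (N : X.Modules) {Ω : X.Opens} (c : Γ(X, Ω)) {W : X.Opens} (h : W ≤ Ω)
    (s : Γ(N, W)) : locApp Ω (scalarEnd N c) h s = resF h c • s := by
  show res N (Glue.image_preimage_of_le h).ge
    (mulRes N c (image_le Ω _) (res N (Glue.image_preimage_of_le h).le s)) = _
  rw [mulRes_res N c h, res_res, res_self, mulRes_apply]

theorem scalarEnd_comp (N : X.Modules) {Ω : X.Opens} {c d : Γ(X, Ω)} (h : c * d = 1) :
    scalarEnd N c ≫ scalarEnd N d = 𝟙 _ := by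
  refine Scheme.Modules.hom_ext _ _ fun Q => ConcreteCategory.hom_ext _ _ ?_
  intro (y : Γ(N, Ω.ι ''ᵁ Q))
  show resF (image_le Ω Q) d • resF (image_le Ω Q) c • y = y
  rw [smul_smul, ← map_mul, mul_comm, h, map_one, one_smul]

/-- The automorphism of multiplication by a unit. -/
def scalarIso (N : X.Modules) {Ω : X.Opens} (c : (Γ(X, Ω))ˣ) :
    N.restrict Ω.ι ≅ N.restrict Ω.ι :=
  ⟨scalarEnd N c.1, scalarEnd N (c⁻¹).1, scalarEnd_comp N c.mul_inv, scalarEnd_comp N c.inv_mul⟩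

/-- **Existence.** -/
theorem exists_isNormalised {p : X ⟶ T} (hep : e ≫ p = 𝟙 T) {V : T.Opens}
    (hM : HasFramesOn M (p ⁻¹ᵁ V)) (θ : LocRig e M (p ⁻¹ᵁ V)) (θ' : LocRig e N (p ⁻¹ᵁ V))
    (φ : M.restrict (p ⁻¹ᵁ V).ι ≅ N.restrict (p ⁻¹ᵁ V).ι) :
    ∃ φ' : M.restrict (p ⁻¹ᵁ V).ι ≅ N.restrict (p ⁻¹ᵁ V).ι, IsNormalised θ θ' φ'.hom := by
  obtain ⟨U, s, hUΩ, hyU, hs⟩ := exists_frames hM
  have hu : ∀ y, IsUnit (θ.val (hUΩ y) (s y)) := fun y => θ.isUnit _ (hs y)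
  have hu' : ∀ y, IsUnit (θ'.val (hUΩ y) (locApp (p ⁻¹ᵁ V) φ.hom (hUΩ y) (s y))) := fun y =>
    θ'.isUnit _ ((hs y).locApp φ (hUΩ y))
  let ν : ∀ y, Γ(T, e ⁻¹ᵁ U y) := fun y =>
    θ.val (hUΩ y) (s y) * ((hu' y).unit⁻¹ : (Γ(T, e ⁻¹ᵁ U y))ˣ).1
  have hν : ∀ (y : X) (W : X.Opens) (h : W ≤ U y) (t : Γ(M, W)),
      resF (e.preimage_mono h) (ν y) *
          θ'.val (h.trans (hUΩ y)) (locApp (p ⁻¹ᵁ V) φ.hom (h.trans (hUΩ y)) t) =
        θ.val (h.trans (hUΩ y)) t := by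
    intro y W h t
    obtain ⟨c, rfl⟩ := (hs y).exists_eq_smul h t
    rw [Glue.locApp_smul, locApp_res φ.hom (hUΩ y), θ'.val_smul, θ.val_smul,
      θ'.val_res (hUΩ y) h, θ.val_res (hUΩ y) h, mul_left_comm]
    congr 1
    rw [← map_mul]
    congr 1
    rw [mul_assoc, IsUnit.val_inv_mul, mul_one]
  have hcompat : TopCat.Presheaf.IsCompatible T.presheaf (fun y => e ⁻¹ᵁ U y) ν := by
    intro y z
    have hle : U y ⊓ U z ≤ U y := inf_le_left
    have h1 := hν y _ hle (res M hle (s y))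
    rw [← hν z _ (inf_le_right : U y ⊓ U z ≤ U z) (res M hle (s y))] at h1
    have h2 := (θ'.isUnit (hle.trans (hUΩ y)) (((hs y).res hle).locApp φ (hle.trans (hUΩ y)))).mul_left_inj.mp h1
    exact h2
  obtain ⟨μ, hμ⟩ : ∃ μ : Γ(T, e ⁻¹ᵁ (p ⁻¹ᵁ V)),
      ∀ y, resF (e.preimage_mono (hUΩ y)) μ = ν y :=
    (TopCat.Sheaf.existsUnique_gluing' T.sheaf (fun y => e ⁻¹ᵁ U y) (e ⁻¹ᵁ (p ⁻¹ᵁ V))
      (fun y => homOfLE (e.preimage_mono (hUΩ y)))
      (fun x hx => Opens.mem_iSup.mpr ⟨e.base x, hyU _ hx⟩) ν hcompat).exists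
  have hμu : IsUnit μ := by
    refine isUnit_of_mem_basicOpen _ fun x hx => ?_
    have h1 : IsUnit (ν (e.base x)) := (hu _).mul ((hu' _).unit⁻¹).isUnit
    rw [← show resF (e.preimage_mono (hUΩ (e.base x))) μ = ν (e.base x) from hμ _] at h1
    have h2 := T.basicOpen_of_isUnit h1
    rw [Scheme.basicOpen_res] at h2
    exact (h2.ge (hyU _ hx : x ∈ e ⁻¹ᵁ U (e.base x))).2
  have heV : V ≤ e ⁻¹ᵁ (p ⁻¹ᵁ V) := by
    rw [← Scheme.Hom.comp_preimage, hep]
    rfl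
  let c : Γ(X, (p ⁻¹ᵁ V)) := p.app V (resF heV μ)
  have hc : e.app (p ⁻¹ᵁ V) c = μ := by
    have h1 : (e ≫ p).app V (resF heV μ) = μ := by
      rw [Scheme.Hom.congr_app hep V]
      show T.presheaf.map _ (resF heV μ) = μ
      exact (resF_resF heV _ μ).trans (resF_self _ μ)
    exact h1
  have hcu : IsUnit c := (hμu.map (T.presheaf.map (homOfLE heV).op).hom).map (p.app V).hom
  refine ⟨φ ≪≫ scalarIso N hcu.unit, fun W h t => ?_⟩
  show θ'.val h (locApp (p ⁻¹ᵁ V) (φ.hom ≫ scalarEnd N c) h t) = _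
  rw [Glue.locApp_comp]
  show θ'.val h (locApp (p ⁻¹ᵁ V) (scalarEnd N c) h (locApp (p ⁻¹ᵁ V) φ.hom h t)) = _
  rw [locApp_scalarEnd, θ'.val_smul]
  have hnat : e.app W (resF h c) = resF (e.preimage_mono h) μ :=
    (ConcreteCategory.congr_hom (e.naturality (homOfLE h).op) c).trans (congrArg _ hc)
  rw [hnat]
  refine TopCat.Sheaf.eq_of_locally_eq' T.sheaf (fun y => e ⁻¹ᵁ (U y ⊓ W)) (e ⁻¹ᵁ W)
    (fun y => homOfLE (e.preimage_mono inf_le_right))
    (fun x hx => Opens.mem_iSup.mpr ⟨e.base x, hyU _ (h hx), hx⟩) _ _ fun y => ?_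
  show resF _ (resF _ μ * _) = resF _ _
  refine (map_mul (T.presheaf.map _).hom _ _).trans ?_
  show resF _ (resF _ μ) * resF _ (θ'.val h _) = resF _ _
  rw [resF_resF, ← θ'.val_res h (inf_le_right : U y ⊓ W ≤ W), ← locApp_res,
    ← θ.val_res h (inf_le_right : U y ⊓ W ≤ W),
    ← resF_resF (e.preimage_mono (hUΩ y)) (e.preimage_mono (inf_le_left : U y ⊓ W ≤ U y))]
  rw [show resF (e.preimage_mono (hUΩ y)) μ = ν y from hμ y]
  exact hν y _ inf_le_left _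

/-- A morphism over an open from maps on the sections over its opens. -/
theorem exists_locHom {Ω : X.Opens} (f : ∀ {W : X.Opens}, W ≤ Ω → (Γ(M, W) →+ Γ(N, W)))
    (hres : ∀ {W V : X.Opens} (h : W ≤ Ω) (h' : V ≤ W) (s : Γ(M, W)),
      f (h'.trans h) (res M h' s) = res N h' (f h s))
    (hsmul : ∀ {W : X.Opens} (h : W ≤ Ω) (r : Γ(X, W)) (s : Γ(M, W)),
      f h (r • s) = r • f h s) :
    ∃ φ : M.restrict Ω.ι ⟶ N.restrict Ω.ι,
      ∀ {W : X.Opens} (h : W ≤ Ω) (s : Γ(M, W)), locApp Ω φ h s = f h s := by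
  refine ⟨(Scheme.Modules.fullyFaithfulToPresheafOfModules).preimage
    (PresheafOfModules.homMk
      { app := fun Q => AddCommGrpCat.ofHom (f (image_le Ω Q.unop))
        naturality := fun Q Q' g => by
          ext y
          exact hres (image_le Ω Q.unop) (Ω.ι.image_mono (leOfHom g.unop)) y }
      fun Q r y => hsmul (image_le Ω Q.unop) ((Ω.ι.appIso Q.unop).inv r) y), fun {W} h s => ?_⟩
  show res N (Glue.image_preimage_of_le h).ge
    (f (image_le Ω _) (res M (Glue.image_preimage_of_le h).le s)) = _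
  rw [hres h, res_res, res_self]

/-- Isomorphisms restrict to smaller opens. -/
theorem exists_iso_mono {Ω Ω' : X.Opens} (φ : M.restrict Ω.ι ≅ N.restrict Ω.ι) (h : Ω' ≤ Ω) :
    ∃ φ' : M.restrict Ω'.ι ≅ N.restrict Ω'.ι,
      ∀ {W : X.Opens} (hW : W ≤ Ω') (s : Γ(M, W)),
        locApp Ω' φ'.hom hW s = locApp Ω φ.hom (hW.trans h) s := by
  obtain ⟨a, ha⟩ := exists_locHom (M := M) (N := N) (Ω := Ω')
    (fun hW => (locApp Ω φ.hom (hW.trans h)).hom)
    (fun hW h' s => locApp_res φ.hom (hW.trans h) h' s)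
    (fun hW r s => Glue.locApp_smul φ.hom (hW.trans h) r s)
  obtain ⟨b, hb⟩ := exists_locHom (M := N) (N := M) (Ω := Ω')
    (fun hW => (locApp Ω φ.inv (hW.trans h)).hom)
    (fun hW h' s => locApp_res φ.inv (hW.trans h) h' s)
    (fun hW r s => Glue.locApp_smul φ.inv (hW.trans h) r s)
  refine ⟨⟨a, b, ?_, ?_⟩, fun hW s => ha hW s⟩
  · refine hom_ext_locApp _ _ fun hW s => ?_
    rw [Glue.locApp_comp, Glue.locApp_id]
    show locApp Ω' b hW (locApp Ω' a hW s) = s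
    rw [ha, hb]
    exact locApp_inv_apply φ _ s
  · refine hom_ext_locApp _ _ fun hW s => ?_
    rw [Glue.locApp_comp, Glue.locApp_id]
    show locApp Ω' a hW (locApp Ω' b hW s) = s
    rw [hb, ha]
    exact locApp_inv_apply φ.symm _ s

end FLTAgent.JacRep.Sheaf
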