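import Fermat.Agent.JacRep.Sheaf.Frame

/-!
# Rigidifications as maps on sections

A rigidification along `e : T ⟶ X` is encoded by `θ : M ⟶ e_* O_T` with `IsRig θ`: its values
generate the functions near every point, equivalently they are units on frames (`IsRig.isUnit`).
`exists_isRig` obtains it from an isomorphism `e^* M ≅ O_T`, and `nonempty_iso_of_isRig` goes back
for a module with frames.
-/

set_option autoImplicit false
set_option linter.style.haveILetI false
set_option maxHeartbeats 800000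

noncomputable section

open CategoryTheory CategoryTheory.Limits AlgebraicGeometry TopologicalSpace Opposite

universe u

namespace FLTAgent.JacRep.Sheaf

variable {X T : Scheme.{u}} (e : T ⟶ X)

/-- The target of a rigidification. -/
abbrev rigTarget : X.Modules := (Scheme.Modules.pushforward e).obj (unitMod T)

variable {e} {M : X.Modules}

/-- The value of a rigidification on a section, as a function on `T`. -/
abbrev rigVal (θ : M ⟶ rigTarget e) {W : X.Opens} (s : Γ(M, W)) : Γ(T, e ⁻¹ᵁ W) := θ.app W s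

theorem rigVal_smul (θ : M ⟶ rigTarget e) {W : X.Opens} (r : Γ(X, W)) (s : Γ(M, W)) :
    rigVal θ (r • s) = e.app W r * rigVal θ s :=
  Scheme.Modules.Hom.app_smul θ r s

theorem rigVal_res (θ : M ⟶ rigTarget e) {W V : X.Opens} (h : V ≤ W) (s : Γ(M, W)) :
    rigVal θ (res M h s) = resF (e.preimage_mono h) (rigVal θ s) :=
  app_res θ h s

/-- The values generate the functions near every point. -/
def IsRig (θ : M ⟶ rigTarget e) : Prop :=
  ∀ x : T, ∃ (W : X.Opens) (s : Γ(M, W)), x ∈ T.basicOpen (rigVal θ s)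

theorem isUnit_of_mem_basicOpen {U : T.Opens} (f : Γ(T, U))
    (h : ∀ x ∈ U, x ∈ T.basicOpen f) : IsUnit f :=
  T.toLocallyRingedSpace.toRingedSpace.isUnit_of_isUnit_germ U f fun x hx =>
    (Scheme.mem_basicOpen' T f ⟨x, hx⟩).mp (h x hx)

theorem IsRig.isUnit {θ : M ⟶ rigTarget e} (hθ : IsRig θ) {U : X.Opens} {s : Γ(M, U)}
    (hs : IsFrame M s) : IsUnit (rigVal θ s) := by
  refine isUnit_of_mem_basicOpen _ fun x hx => ?_
  obtain ⟨W, t, hxt⟩ := hθ x
  have hxW : x ∈ e ⁻¹ᵁ W := T.basicOpen_le _ hxt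
  obtain ⟨r, hr⟩ := hs.exists_eq_smul (inf_le_left : U ⊓ W ≤ U) (res M inf_le_right t)
  have h1 : x ∈ T.basicOpen (resF (e.preimage_mono (inf_le_right : U ⊓ W ≤ W)) (rigVal θ t)) := by
    rw [Scheme.basicOpen_res]
    exact ⟨⟨hx, hxW⟩, hxt⟩
  rw [← rigVal_res θ (inf_le_right : U ⊓ W ≤ W), hr, rigVal_smul, Scheme.basicOpen_mul] at h1
  have h2 := h1.2
  rw [rigVal_res, Scheme.basicOpen_res] at h2
  exact h2.2

/-- The unit map to a pushforward. -/
def unitPush {S : Scheme.{u}} (g : S ⟶ T) :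
    unitMod T ⟶ (Scheme.Modules.pushforward g).obj (unitMod S) :=
  SheafOfModules.unitToPushforwardObjUnit g.toRingCatSheafHom

theorem unitPush_app {S : Scheme.{u}} (g : S ⟶ T) (V : T.Opens) (f : Γ(T, V)) :
    (unitPush g).app V f = g.app V f :=
  rfl

theorem unitPush_ne_zero {S : Scheme.{u}} (g : S ⟶ T) [Nontrivial Γ(S, g ⁻¹ᵁ (⊤ : T.Opens))] :
    unitPush g ≠ 0 := fun h => by
  have h1 : g.app ⊤ (1 : Γ(T, ⊤)) = 0 := (unitPush_app g ⊤ 1).symm.trans (by rw [h]; rfl)
  rw [map_one] at h1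
  exact one_ne_zero h1

/-- A rigidification gives such a map. -/
theorem exists_isRig (h : Nonempty ((Scheme.Modules.pullback e).obj M ≅ unitMod T)) :
    ∃ θ : M ⟶ rigTarget e, IsRig θ := by
  obtain ⟨r⟩ := h
  let adj := Scheme.Modules.pullbackPushforwardAdjunction e
  refine ⟨adj.homEquiv _ _ r.hom, fun x => ?_⟩
  by_contra hx
  push Not at hx
  let g : Spec (T.residueField x) ⟶ T := T.fromSpecResidueField x
  let q := unitPush g
  have hz : adj.homEquiv _ _ r.hom ≫ (Scheme.Modules.pushforward e).map q = 0 := by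
    refine Scheme.Modules.hom_ext _ _ fun W => ?_
    ext s
    show (unitPush g).app (e ⁻¹ᵁ W) (rigVal (adj.homEquiv _ _ r.hom) s) = 0
    rw [unitPush_app]
    generalize hf : rigVal (adj.homEquiv _ _ r.hom) s = f
    by_cases hxW : x ∈ e ⁻¹ᵁ W
    · have hbot : (Spec (T.residueField x)).basicOpen (g.app (e ⁻¹ᵁ W) f) = ⊥ := by
        rw [← Scheme.preimage_basicOpen, eq_bot_iff]
        intro y hy
        have : g.base y = x := T.fromSpecResidueField_apply x y
        exact (hx W s (hf ▸ this ▸ hy)).elim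
      exact (basicOpen_eq_bot_iff _).mp hbot
    · haveI : Subsingleton Γ(Spec (T.residueField x), g ⁻¹ᵁ (e ⁻¹ᵁ W)) := by
        have he : g ⁻¹ᵁ (e ⁻¹ᵁ W) = ⊥ := eq_bot_iff.mpr fun y hy => by
          have : g.base y = x := T.fromSpecResidueField_apply x y
          exact (hxW (this ▸ hy)).elim
        rw [he]
        infer_instance
      exact @Subsingleton.elim Γ(Spec (T.residueField x), g ⁻¹ᵁ (e ⁻¹ᵁ W)) _ _ _
  rw [← Adjunction.homEquiv_naturality_right] at hz
  have hq : r.hom ≫ q = 0 :=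
    (adj.homEquiv _ _).injective (by
      rw [hz, Adjunction.homEquiv_unit, Functor.map_zero, comp_zero])
  have hq' : q = 0 := by rw [← cancel_epi r.hom, hq, comp_zero]
  haveI : Nontrivial Γ(Spec (T.residueField x), g ⁻¹ᵁ (⊤ : T.Opens)) :=
    inferInstanceAs (Nontrivial Γ(Spec (T.residueField x), ⊤))
  exact unitPush_ne_zero g hq'

/-- Such a map gives a rigidification. -/
theorem nonempty_iso_of_isRig (hM : HasFrames M) (θ : M ⟶ rigTarget e) (hθ : IsRig θ) :
    Nonempty ((Scheme.Modules.pullback e).obj M ≅ unitMod T) := by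
  let adj := Scheme.Modules.pullbackPushforwardAdjunction e
  let N := (Scheme.Modules.pullback e).obj M
  let η : M ⟶ (Scheme.Modules.pushforward e).obj N := adj.unit.app M
  let ηv : ∀ {W : X.Opens}, Γ(M, W) → Γ(N, e ⁻¹ᵁ W) := fun {W} t => η.app W t
  have ηv_smul : ∀ {W : X.Opens} (r : Γ(X, W)) (t : Γ(M, W)), ηv (r • t) = e.app W r • ηv t :=
    fun r t => Scheme.Modules.Hom.app_smul η r t
  have ηv_res : ∀ {W V : X.Opens} (h : V ≤ W) (t : Γ(M, W)),
      ηv (res M h t) = res N (e.preimage_mono h) (ηv t) := fun h t => app_res η h t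
  choose U s hxU hs using hM
  have hu : ∀ y, IsUnit (rigVal θ (s y)) := fun y => hθ.isUnit (hs y)
  -- the local inverse images of one
  let m : ∀ y : X, Γ(N, e ⁻¹ᵁ U y) := fun y =>
    ((hu y).unit⁻¹ : (Γ(T, e ⁻¹ᵁ U y))ˣ).1 • ηv (s y)
  -- they behave like the inverse image of one
  have hm : ∀ (y : X) (W : X.Opens) (h : W ≤ U y) (t : Γ(M, W)),
      rigVal θ t • res N (e.preimage_mono h) (m y) = ηv t := by
    intro y W h t
    obtain ⟨r, rfl⟩ := (hs y).exists_eq_smul h t
    rw [rigVal_smul, rigVal_res, ηv_smul, ηv_res]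
    rw [mul_smul, ← res_smul, smul_smul, IsUnit.mul_val_inv, one_smul]
  have hcompat : TopCat.Presheaf.IsCompatible N.presheaf (fun y => e ⁻¹ᵁ U y) m := by
    intro y z
    have hle₁ : U y ⊓ U z ≤ U y := inf_le_left
    have h1 := hm y _ hle₁ (res M hle₁ (s y))
    have h2 := hm z _ (inf_le_right : U y ⊓ U z ≤ U z) (res M hle₁ (s y))
    rw [← h2] at h1
    have h3 := (hθ.isUnit ((hs y).res hle₁)).smul_left_cancel.mp h1
    exact h3
  obtain ⟨n, hn, -⟩ := TopCat.Sheaf.existsUnique_gluing' ⟨N.presheaf, N.isSheaf⟩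
    (fun y => e ⁻¹ᵁ U y) ⊤ (fun y => homOfLE le_top)
    (fun x _ => Opens.mem_iSup.mpr ⟨e.base x, hxU _⟩) m hcompat
  have hn' : ∀ y, res N le_top n = m y := hn
  -- the inverse
  let b : SheafOfModules.sections N :=
    PresheafOfModules.sectionsMk (fun W => res N (le_top : W.unop ≤ ⊤) n) fun V W f => by
      show res N (leOfHom f.unop) (res N le_top n) = res N le_top n
      rw [res_res]
  let inv' : unitMod T ⟶ N := (SheafOfModules.unitHomEquiv N).symm b
  have hinv : ∀ (W : T.Opens) (r : Γ(T, W)), inv'.app W r = r • res N le_top n := fun W r => rfl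
  let hom' : N ⟶ unitMod T := (adj.homEquiv _ _).symm θ
  have hηθ : ∀ (W : X.Opens) (t : Γ(M, W)), hom'.app (e ⁻¹ᵁ W) (ηv t) = rigVal θ t := by
    intro W t
    have h := (adj.homEquiv _ _).apply_symm_apply θ
    rw [Adjunction.homEquiv_unit] at h
    exact ConcreteCategory.congr_hom (congrArg (fun φ => Scheme.Modules.Hom.app φ W) h) t
  refine ⟨⟨hom', inv', ?_, ?_⟩⟩
  · apply (adj.homEquiv _ _).injective
    rw [Adjunction.homEquiv_unit, Adjunction.homEquiv_unit]
    refine Eq.trans ?_ ((congrArg (adj.unit.app M ≫ ·)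
      ((Scheme.Modules.pushforward e).map_id _)).trans (Category.comp_id _)).symm
    refine Scheme.Modules.hom_ext _ _ fun W => ?_
    ext t
    show inv'.app (e ⁻¹ᵁ W) (hom'.app (e ⁻¹ᵁ W) (ηv t)) = ηv t
    rw [hηθ, hinv]
    refine TopCat.Sheaf.eq_of_locally_eq' ⟨N.presheaf, N.isSheaf⟩
      (fun y => e ⁻¹ᵁ (U y ⊓ W)) (e ⁻¹ᵁ W) (fun y => homOfLE (e.preimage_mono inf_le_right))
      (fun x hx => Opens.mem_iSup.mpr ⟨e.base x, hxU _, hx⟩) _ _ fun y => ?_
    show res N _ (rigVal θ t • res N le_top n) = res N _ (ηv t)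
    rw [res_smul, res_res, ← rigVal_res θ (inf_le_right : U y ⊓ W ≤ W),
      ← res_res N (le_top : e ⁻¹ᵁ U y ≤ ⊤) (e.preimage_mono (inf_le_left : U y ⊓ W ≤ U y)),
      hn' y, hm y _ inf_le_left]
    exact ηv_res _ t
  · refine Scheme.Modules.hom_ext _ _ fun W => ConcreteCategory.hom_ext _ _ ?_
    intro (r : Γ(T, W))
    refine (congrArg (fun z => hom'.app W z) (hinv W r)).trans ?_
    show hom'.app W (r • res N le_top n) = r
    rw [Scheme.Modules.Hom.app_smul, app_res]
    have hone : hom'.app ⊤ n = (1 : Γ(T, ⊤)) := by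
      refine TopCat.Sheaf.eq_of_locally_eq' T.sheaf (fun y => e ⁻¹ᵁ U y) ⊤
        (fun y => homOfLE le_top) (fun x _ => Opens.mem_iSup.mpr ⟨e.base x, hxU _⟩) _ _ fun y => ?_
      show res (unitMod T) le_top (hom'.app ⊤ n) = T.presheaf.map _ (1 : Γ(T, ⊤))
      rw [← app_res, hn' y, map_one, Scheme.Modules.Hom.app_smul, hηθ]
      exact (hu y).val_inv_mul
    rw [hone]
    show r * T.presheaf.map _ (1 : Γ(T, ⊤)) = r
    exact (congrArg (r * ·) (map_one _)).trans (mul_one r)

end FLTAgent.JacRep.Sheaf
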