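import Fermat.Agent.JacRep.Sheaf.ChartsOver
import Fermat.Agent.JacRep.Sheaf.Normal
import Fermat.Agent.JacRep.Coh
import Fermat.Agent.JacRep.Asm.Hom

/-!
# Rigidity of the relative curve along the section

`rigid`: on the preimage of an open of `T` in `C × T`, a function equal to `1` along the section is
`1`. Over an affine base this follows from `Bundle.global_eq` on the two charts
(`eq_one_affine`); in general one restricts to affine opens of `T`, base change along an open
immersion being a pullback (`isPullback_baseChangeSnd`).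
-/

set_option autoImplicit false
set_option linter.style.haveILetI false

noncomputable section

open CategoryTheory CategoryTheory.Limits AlgebraicGeometry AlgebraicGeometry.RelPicard
  NeronModelInfra TopologicalSpace Opposite
open scoped TensorProduct

universe u

namespace FLTAgent.JacRep.Over

variable {k : Type u} [Field k] {Cv : Cover k} {C : Scheme.{u}}
  {c : C ⟶ Spec (CommRingCat.of k)} {ε : SchemeHomOver (𝟙 (Spec (CommRingCat.of k))) c}
  (W : Realization Cv c ε)

/-- The value on a chart of a global function. -/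
def chartVal {B : Type u} [CommRing B] {Y : Scheme.{u}} (h : Spec (CommRingCat.of B) ⟶ Y) :
    Γ(Y, ⊤) →+* B :=
  ((Scheme.ΓSpecIso (CommRingCat.of B)).hom.hom).comp (h.appTop).hom

theorem chartVal_comp {B B' : Type u} [CommRing B] [CommRing B'] {Y : Scheme.{u}}
    (h : Spec (CommRingCat.of B) ⟶ Y) (f : B →+* B') :
    chartVal (Spec.map (CommRingCat.ofHom f) ≫ h) = f.comp (chartVal h) := by
  ext b
  show (Scheme.ΓSpecIso _).hom ((Spec.map (CommRingCat.ofHom f) ≫ h).appTop b) =
    f ((Scheme.ΓSpecIso _).hom (h.appTop b))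
  rw [Scheme.Hom.comp_appTop]
  exact ConcreteCategory.congr_hom (Scheme.ΓSpecIso_naturality (CommRingCat.ofHom f)) (h.appTop b)

theorem appLE_congr_hom {X Y : Scheme.{u}} {f g : X ⟶ Y} (h : f = g) {U : Y.Opens} {V : X.Opens}
    (hf : V ≤ f ⁻¹ᵁ U) (hg : V ≤ g ⁻¹ᵁ U) : f.appLE U V hf = g.appLE U V hg := by
  subst h; rfl

include W in
/-- Over an affine base only `1` restricts to `1` along the section. -/
theorem eq_one_affine (R : Type u) [CommRing R] [Algebra k R]
    (b : Γ(pullback c (specStr k R), ⊤))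
    (h : (rigSection c (specStr k R) ε).appTop b = 1) : b = 1 := by
  set a₀ := chartVal (chart₀ R W) b with ha₀
  set a₁ := chartVal (chart₁ R W) b with ha₁
  have hov : Cv.resB₀ R a₀ = Cv.resB₁ R a₁ := by
    rw [ha₀, ha₁, ← RingHom.comp_apply, ← RingHom.comp_apply, ← chartVal_comp, ← chartVal_comp]
    exact RingHom.congr_fun (congrArg chartVal (isPullback_charts R W).w) b
  obtain ⟨r, hr⟩ := Bundle.global_eq a₀ a₁ hov
  have hb : Cv.baseB R a₀ = 1 := by
    rw [ha₀, ← RingHom.comp_apply, ← chartVal_comp, ← rigSection_eq R W]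
    show (Scheme.ΓSpecIso _).hom ((rigSection c (specStr k R) ε).appTop b) = 1
    rw [h, map_one]
  have hr1 : r = 1 := by
    rw [hr] at hb
    simpa [Cover.baseB] using hb
  have h₀ : a₀ = 1 := by rw [hr, hr1]; rfl
  have h₁ : a₁ = 1 := by
    refine Cv.resB₁_injective R ?_
    rw [← hov, h₀, map_one, map_one]
  have hval : ∀ {B : Type u} [CommRing B] (f : Spec (CommRingCat.of B) ⟶ pullback c (specStr k R)),
      chartVal f b = 1 → f.appTop b = 1 := fun f hf => by
    apply (ConcreteCategory.bijective_of_isIso (Scheme.ΓSpecIso _).hom).1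
    rw [map_one]
    exact hf
  refine TopCat.Presheaf.section_ext (pullback c (specStr k R)).sheaf ⊤ b 1 fun x hx => ?_
  have key : ∀ {B : Type u} [CommRing B] (f : Spec (CommRingCat.of B) ⟶ pullback c (specStr k R))
      [IsOpenImmersion f], chartVal f b = 1 → x ∈ Set.range f.base →
      (pullback c (specStr k R)).presheaf.germ ⊤ x hx b =
        (pullback c (specStr k R)).presheaf.germ ⊤ x hx 1 := by
    intro B _ f _ hf hxf
    obtain ⟨y, rfl⟩ := hxf
    apply (ConcreteCategory.bijective_of_isIso (f.stalkMap y)).1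
    rw [Scheme.Hom.germ_stalkMap_apply, Scheme.Hom.germ_stalkMap_apply, map_one]
    exact congrArg _ (hval f hf)
  rcases (range_chart_union R W).ge (Set.mem_univ x) with hx0 | hx1
  · exact key (chart₀ R W) h₀ hx0
  · exact key (chart₁ R W) h₁ hx1

variable (c) in
/-- Base change is a pullback. -/
theorem isPullback_baseChangeSnd {T T' : Scheme.{u}} {t : T ⟶ Spec (CommRingCat.of k)}
    {t' : T' ⟶ Spec (CommRingCat.of k)} (ψ : SchemeHomOver t' t) :
    IsPullback (baseChangeSnd c ψ) (pullback.snd c t') (pullback.snd c t) ψ.1 := by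
  refine IsPullback.of_bot ?_ ?_ (IsPullback.of_hasPullback c t).flip |>.flip
  · have h := (IsPullback.of_hasPullback c t').flip
    rw [show baseChangeSnd c ψ ≫ pullback.fst c t = pullback.fst c t' from
      (pullback.lift_fst _ _ _).trans (Category.comp_id _), ψ.2]
    exact h
  · exact (pullback.lift_snd _ _ _).symm

/-- Affine neighbourhoods inside an open. -/
theorem exists_affine_nhd' {X : Scheme.{u}} (V : X.Opens) {x : X} (hx : x ∈ V) :
    ∃ (R : CommRingCat.{u}) (j : Spec R ⟶ X), IsOpenImmersion j ∧ x ∈ Set.range j.base ∧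
      Set.range j.base ⊆ (V : Set X) := by
  obtain ⟨_, ⟨W, hW, rfl⟩, hxW, hWV⟩ := X.isBasis_affineOpens.exists_subset_of_mem_open hx V.2
  refine ⟨Γ(X, W), hW.fromSpec, hW.isOpenImmersion_fromSpec, ?_, ?_⟩
  · rw [hW.range_fromSpec]; exact hxW
  · rw [hW.range_fromSpec]; exact hWV

include W in
/-- **Rigidity.** -/
theorem rigid {T : Scheme.{u}} (t : T ⟶ Spec (CommRingCat.of k)) :
    Sheaf.Rigid (pullback.snd c t) (rigSection c t ε) := by
  intro V a ha
  refine TopCat.Presheaf.section_ext (pullback c t).sheaf _ a 1 fun x hx => ?_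
  obtain ⟨R, j, hj, hxj, hjV⟩ := exists_affine_nhd' V hx
  obtain ⟨_, hR⟩ := exists_algebra_specStr (R := (R : Type u)) (j ≫ t)
  let ψ : SchemeHomOver (specStr k R) t := ⟨j, hR.symm⟩
  let bj := baseChangeSnd c ψ
  have hpb := isPullback_baseChangeSnd c ψ
  haveI : IsOpenImmersion bj := MorphismProperty.of_isPullback (P := @IsOpenImmersion) hpb.flip hj
  obtain ⟨y, rfl⟩ : x ∈ Set.range bj.base := by
    rw [show Set.range bj.base = (pullback.snd c t).base ⁻¹' Set.range j.base from ?_]
    · exact hxj
    show Set.range (baseChangeSnd c ψ).base = (pullback.snd c t).base ⁻¹' Set.range ψ.1.base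
    rw [← hpb.isoPullback_hom_fst, Scheme.Hom.comp_base, TopCat.coe_comp, Set.range_comp,
      Set.range_eq_univ.2 hpb.isoPullback.hom.surjective, Set.image_univ,
      Scheme.Pullback.range_fst]
  have htop : (⊤ : (pullback c (specStr k R)).Opens) ≤ bj ⁻¹ᵁ (pullback.snd c t ⁻¹ᵁ V) := by
    intro z _
    show (bj ≫ pullback.snd c t).base z ∈ V
    simp only [bj, baseChangeSnd, pullback.map, pullback.lift_snd]
    exact hjV ⟨_, rfl⟩
  have hb : bj.appLE (pullback.snd c t ⁻¹ᵁ V) ⊤ htop a = 1 := by
    refine eq_one_affine W R _ ?_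
    have h1 := Scheme.Hom.appLE_comp_appLE (rigSection c (specStr k R) ε) bj
      (pullback.snd c t ⁻¹ᵁ V) ⊤ ⊤ htop le_top
    have hcomm : rigSection c (specStr k R) ε ≫ bj = j ≫ rigSection c t ε :=
      rigSection_baseChangeSnd c ε ψ
    have hle : (⊤ : (Spec (CommRingCat.of R)).Opens) ≤
        (j ≫ rigSection c t ε) ⁻¹ᵁ (pullback.snd c t ⁻¹ᵁ V) := by
      rw [← hcomm]
      exact fun z _ => htop trivial
    rw [appLE_congr_hom hcomm _ hle, Scheme.Hom.comp_appLE] at h1
    have h2 := ConcreteCategory.congr_hom h1 a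
    rw [CategoryTheory.comp_apply, CategoryTheory.comp_apply, ha, map_one] at h2
    rw [Scheme.Hom.appTop, Scheme.Hom.app_eq_appLE]
    exact h2
  show (pullback c t).presheaf.germ _ (bj.base y) hx a = (pullback c t).presheaf.germ _ _ hx 1
  apply (ConcreteCategory.bijective_of_isIso (bj.stalkMap y)).1
  rw [Scheme.Hom.germ_stalkMap_apply, Scheme.Hom.germ_stalkMap_apply, map_one]
  have := congrArg ((pullback c (specStr k R)).presheaf.germ ⊤ y (Opens.mem_top y)) hb
  rw [map_one, Scheme.Hom.appLE, CategoryTheory.comp_apply, TopCat.Presheaf.germ_res_apply] at this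
  rw [this, map_one]

end FLTAgent.JacRep.Over
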